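/-
Program C (S55), package C9b, leaf block L2-P (helper11): the INSTANTIATION of the divisor package
`DivData` (`DivPkg.lean`) for `G = Gal(ℚ̄/F)`, `D = fieldDatum S F`, `P = P_S = ℚ_S^× / E_S`.

`XS S` : the valuation subrings of `ℚ̄` over the primes outside `S`, with the action of `Gal(ℚ̄/ℚ)`.
`dvP S : P_S →+ (XS S → ℤ)` : the valuation map (`u ↦ (A ↦ ord_A u)`), equivariant and injective
(helper56's `ValCore`).
-/
import Mathlib
import Fermat.Agent.S55.H11.DivPkg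
import Fermat.Agent.S55.H42.GSDefs
import Fermat.Agent.S55.H56.ValCore
import Fermat.Agent.S55.H93.L2PLeaves

set_option autoImplicit false

open CategoryTheory
open scoped Pointwise
open Fermat.Agent.S55.H49

noncomputable section

namespace Fermat.Agent.S55.H11

local notation "Qb" => AlgebraicClosure ℚ
local notation "GQ" => (AlgebraicClosure ℚ ≃ₐ[ℚ] AlgebraicClosure ℚ)

/-- A valuation subring of `ℚ̄` lies over at most one prime. -/
theorem liesOverPrime_unique {A : ValuationSubring Qb} {q q' : ℕ} (hq : q.Prime) (hq' : q'.Prime)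
    (h : A.LiesOverPrime q) (h' : A.LiesOverPrime q') : q = q' := by
  by_contra hne
  have hnd : ¬ ((q : ℤ) ∣ (q' : ℤ)) := by
    rw [Int.natCast_dvd_natCast]
    intro hd
    exact hne ((Nat.prime_dvd_prime_iff_eq hq hq').mp hd)
  have hu := H56.isUnitAt_intCast_of_not_dvd hq h hnd
  have h0 : (((q' : ℤ) : Qb)) ≠ 0 := by
    rw [Int.cast_natCast]
    exact Nat.cast_ne_zero.mpr hq'.ne_zero
  have h1 := H56.valuation_eq_one_of_isUnitAt hu h0
  have h2 := H56.valuation_prime_lt_one h'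
  rw [Int.cast_natCast] at h1
  exact absurd h1 h2.ne

variable (S : Finset Nat.Primes)

/-- The valuation subrings of `ℚ̄` over the primes outside `S`. -/
def XS : Type := {A : ValuationSubring Qb // ∃ q : Nat.Primes, q ∉ S ∧ A.LiesOverPrime (q : ℕ)}

variable {S}

namespace XS

/-- The residue characteristic. -/
def prime (x : XS S) : Nat.Primes := x.2.choose

theorem prime_not_mem (x : XS S) : x.prime ∉ S := x.2.choose_spec.1

theorem liesOver (x : XS S) : x.1.LiesOverPrime (x.prime : ℕ) := x.2.choose_spec.2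

theorem prime_eq (x : XS S) {q : ℕ} (hq : q.Prime) (h : x.1.LiesOverPrime q) :
    (x.prime : ℕ) = q :=
  liesOverPrime_unique x.prime.2 hq x.liesOver h

instance : MulAction GQ (XS S) where
  smul g x := ⟨g • x.1, by
    obtain ⟨q, hq, hA⟩ := x.2
    exact ⟨q, hq, H43.liesOverPrime_smul x.1 g hA⟩⟩
  one_smul x := Subtype.ext (one_smul _ _)
  mul_smul g h x := Subtype.ext (mul_smul _ _ _)

theorem coe_smul (g : GQ) (x : XS S) : (g • x).1 = g • x.1 := rfl

theorem prime_smul (g : GQ) (x : XS S) : (g • x).prime = x.prime := by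
  apply Subtype.ext
  exact (g • x).prime_eq x.prime.2 (H43.liesOverPrime_smul x.1 g x.liesOver)

theorem coe_smul_sub {H : Subgroup GQ} (g : H) (x : XS S) : (g • x).1 = (g : GQ) • x.1 := rfl

theorem prime_smul_sub {H : Subgroup GQ} (g : H) (x : XS S) : (g • x).prime = x.prime :=
  prime_smul (g : GQ) x

end XS

/-! ### The valuation map on `ℚ_S^×` -/

theorem exists_ordQ (y : H42.QSx S) (x : XS S) :
    ∃ m : ℤ, ((H42.unitsRep.val y : Qbˣ) : Qb) / ((x.prime : ℕ) : Qb) ^ m ∈ x.1 ∧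
      ((x.prime : ℕ) : Qb) ^ m / ((H42.unitsRep.val y : Qbˣ) : Qb) ∈ x.1 := by
  obtain ⟨N, hN, huN⟩ := H42.unitsRep.val_mem y
  exact H56.exists_zpow_unit hN x.prime x.prime_not_mem x.1 x.liesOver huN (Units.ne_zero _)

/-- The order of `y ∈ ℚ_S^×` at the valuation subring `x`. -/
def ordQ (y : H42.QSx S) (x : XS S) : ℤ := (exists_ordQ y x).choose

theorem ordQ_spec (y : H42.QSx S) (x : XS S) :
    ((H42.unitsRep.val y : Qbˣ) : Qb) / ((x.prime : ℕ) : Qb) ^ (ordQ y x) ∈ x.1 ∧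
      ((x.prime : ℕ) : Qb) ^ (ordQ y x) / ((H42.unitsRep.val y : Qbˣ) : Qb) ∈ x.1 :=
  (exists_ordQ y x).choose_spec

theorem ordQ_unique (y : H42.QSx S) (x : XS S) {m : ℤ}
    (h1 : ((H42.unitsRep.val y : Qbˣ) : Qb) / ((x.prime : ℕ) : Qb) ^ m ∈ x.1)
    (h2 : ((x.prime : ℕ) : Qb) ^ m / ((H42.unitsRep.val y : Qbˣ) : Qb) ∈ x.1) : ordQ y x = m :=
  H56.zpow_unit_unique x.prime.2 x.liesOver (Units.ne_zero _) (ordQ_spec y x).1 (ordQ_spec y x).2
    h1 h2

theorem prime_ne_zero (x : XS S) : (((x.prime : ℕ) : Qb)) ≠ 0 :=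
  Nat.cast_ne_zero.mpr x.prime.2.ne_zero

theorem ordQ_add (y y' : H42.QSx S) (x : XS S) : ordQ (y + y') x = ordQ y x + ordQ y' x := by
  have h := H56.zpow_unit_mul (prime_ne_zero x) (ordQ_spec y x).1 (ordQ_spec y x).2
    (ordQ_spec y' x).1 (ordQ_spec y' x).2
  refine ordQ_unique (y + y') x ?_ ?_
  · rw [H42.unitsRep.val_add, Units.val_mul]
    exact h.1
  · rw [H42.unitsRep.val_add, Units.val_mul]
    exact h.2

/-- The valuation map on `ℚ_S^×`. -/
def dvQ (S : Finset Nat.Primes) : H42.QSx S →+ (XS S → ℤ) :=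
  AddMonoidHom.mk' (fun y x => ordQ y x) fun y y' => funext fun x => ordQ_add y y' x

theorem dvQ_apply (y : H42.QSx S) (x : XS S) : dvQ S y x = ordQ y x := rfl

/-- The kernel of the valuation map is `E_S`. -/
theorem dvQ_eq_zero_iff (y : H42.QSx S) : dvQ S y = 0 ↔ H42.unitsRep.val y ∈ H42.sUnits S := by
  constructor
  · intro h
    refine ⟨H42.unitsRep.val_mem y, fun q hq A hA => ?_⟩
    let x : XS S := ⟨A, q, hq, hA⟩
    have hx : ordQ y x = 0 := congrFun h x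
    have hs := ordQ_spec y x
    rw [hx, zpow_zero, div_one, one_div] at hs
    refine ⟨hs.1, ?_⟩
    rw [Units.val_inv_eq_inv_val]
    exact hs.2
  · intro h
    funext x
    obtain ⟨h1, h2⟩ := h.2 x.prime x.prime_not_mem x.1 x.liesOver
    show ordQ y x = 0
    refine ordQ_unique y x ?_ ?_
    · rw [zpow_zero, div_one]
      exact h1
    · rw [zpow_zero, one_div, ← Units.val_inv_eq_inv_val]
      exact h2

/-- Equivariance of the valuation map. -/
theorem dvQ_smul (σ : GQ) (y : H42.QSx S) (x : XS S) :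
    dvQ S ((H42.QSx S).ρ σ y) x = dvQ S y (σ⁻¹ • x) := by
  have hs := ordQ_spec y (σ⁻¹ • x)
  rw [XS.prime_smul] at hs
  have h := H56.zpow_unit_smul σ hs.1 hs.2
  have e : σ • (σ⁻¹ • x).1 = x.1 := by
    rw [XS.coe_smul, smul_inv_smul]
  rw [e] at h
  refine ordQ_unique _ x ?_ ?_
  · rw [H42.unitsRep.val_ρ, H42.coe_smul_units]
    exact h.1
  · rw [H42.unitsRep.val_ρ, H42.coe_smul_units]
    exact h.2

/-! ### The valuation map on `P_S` -/

theorem dvQ_eq_of_qsToPs_eq {y y' : H42.QSx S} (h : (H42.qsToPs S).hom y = (H42.qsToPs S).hom y') :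
    dvQ S y = dvQ S y' := by
  have h1 : (H42.qsToPs S).hom (y - y') = 0 := by
    rw [map_sub, h, sub_self]
  have h2 := (dvQ_eq_zero_iff (y - y')).mpr ((H42.qsToPs_eq_zero_iff S _).mp h1)
  rw [map_sub, sub_eq_zero] at h2
  exact h2

/-- The valuation map on `P_S = ℚ_S^× / E_S`. -/
def dvP (S : Finset Nat.Primes) : H42.PSx S →+ (XS S → ℤ) :=
  AddMonoidHom.mk' (fun m => dvQ S (H42.qsToPs_surjective S m).choose) fun m m' => by
    rw [← map_add]
    apply dvQ_eq_of_qsToPs_eq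
    rw [map_add, (H42.qsToPs_surjective S m).choose_spec,
      (H42.qsToPs_surjective S m').choose_spec, (H42.qsToPs_surjective S (m + m')).choose_spec]

theorem dvP_qsToPs (y : H42.QSx S) : dvP S ((H42.qsToPs S).hom y) = dvQ S y :=
  dvQ_eq_of_qsToPs_eq (H42.qsToPs_surjective S ((H42.qsToPs S).hom y)).choose_spec

theorem dvP_injective : Function.Injective (dvP S) := by
  rw [injective_iff_map_eq_zero]
  intro m hm
  obtain ⟨y, rfl⟩ := H42.qsToPs_surjective S m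
  rw [dvP_qsToPs] at hm
  exact (H42.qsToPs_eq_zero_iff S y).mpr ((dvQ_eq_zero_iff y).mp hm)

theorem dvP_smul (σ : GQ) (m : H42.PSx S) (x : XS S) :
    dvP S ((H42.PSx S).ρ σ m) x = dvP S m (σ⁻¹ • x) := by
  obtain ⟨y, rfl⟩ := H42.qsToPs_surjective S m
  rw [← Rep.hom_comm_apply, dvP_qsToPs, dvP_qsToPs, dvQ_smul]

/-! ### Finiteness of the support -/

/-- Every element of `Gal(ℚ̄/ℚ)` is `h * r` with `h` in a subgroup of finite index and `r` in a
finite set. -/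
theorem exists_finset_reps (H : Subgroup GQ) [H.FiniteIndex] :
    ∃ R : Finset GQ, ∀ g : GQ, ∃ h ∈ H, ∃ r ∈ R, g = h * r := by
  classical
  have hfinite : Finite (GQ ⧸ H) := inferInstance
  let _ := Fintype.ofFinite (GQ ⧸ H)
  refine ⟨Finset.univ.image fun q : GQ ⧸ H => (q.out)⁻¹, fun g => ?_⟩
  have h1 : (((g⁻¹ : GQ) : GQ ⧸ H).out)⁻¹ * g⁻¹ ∈ H :=
    QuotientGroup.eq.mp (QuotientGroup.out_eq' ((g⁻¹ : GQ) : GQ ⧸ H))
  exact ⟨((((g⁻¹ : GQ) : GQ ⧸ H).out)⁻¹ * g⁻¹)⁻¹, H.inv_mem h1, (((g⁻¹ : GQ) : GQ ⧸ H).out)⁻¹,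
    Finset.mem_image_of_mem _ (Finset.mem_univ _), by group⟩

/-- The divisor of an element of `P_S` is supported on finitely many orbits of `Gal(ℚ̄/F)`. -/
theorem dvP_fin (horb : H93.OrbStatement) (F : IntermediateField ℚ Qb) [FiniteDimensional ℚ F]
    (m : H42.PSx S) :
    ∃ t : Finset (XS S), ∀ x, dvP S m x ≠ 0 → ∃ y ∈ t, ∃ g : ↥F.fixingSubgroup, g • y = x := by
  classical
  obtain ⟨y₀, rfl⟩ := H42.qsToPs_surjective S m
  obtain ⟨T, hT⟩ := H56.finite_support ((H42.unitsRep.val y₀ : Qbˣ) : Qb) (Units.ne_zero _)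
  have := H42.finiteIndex_fixingSubgroup F
  obtain ⟨R, hR⟩ := exists_finset_reps F.fixingSubgroup
  let pt : ℕ → Finset (XS S) := fun ℓ =>
    if h : ∃ a : XS S, (a.prime : ℕ) = ℓ then R.image fun r => r • h.choose else ∅
  refine ⟨T.biUnion pt, fun x hx => ?_⟩
  rw [dvP_qsToPs] at hx
  have hxT : (x.prime : ℕ) ∈ T := by
    by_contra hnot
    apply hx
    obtain ⟨h1, h2⟩ := hT _ x.prime.2 hnot x.1 x.liesOver
    show ordQ y₀ x = 0
    refine ordQ_unique y₀ x ?_ ?_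
    · rw [zpow_zero, div_one]
      exact h1
    · rw [zpow_zero, one_div]
      exact h2
  have hex : ∃ a : XS S, (a.prime : ℕ) = (x.prime : ℕ) := ⟨x, rfl⟩
  have hlo : hex.choose.1.LiesOverPrime (x.prime : ℕ) := by
    have := hex.choose.liesOver
    rwa [hex.choose_spec] at this
  obtain ⟨g, hg⟩ := horb (x.prime : ℕ) x.prime.2 hex.choose.1 x.1 hlo x.liesOver
  obtain ⟨h, hh, r, hr, rfl⟩ := hR g
  refine ⟨r • hex.choose, Finset.mem_biUnion.mpr ⟨_, hxT, ?_⟩, ⟨h, hh⟩, ?_⟩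
  · simp only [pt]
    rw [dif_pos hex]
    exact Finset.mem_image_of_mem _ hr
  · apply Subtype.ext
    show h • (r • hex.choose).1 = x.1
    rw [XS.coe_smul, ← mul_smul]
    exact hg

/-! ### Frobenius elements -/

theorem apply_mem_of_normal {N : IntermediateField ℚ Qb} (hN : N.fixingSubgroup.Normal) (g : GQ)
    {x : Qb} (hx : x ∈ N) : g x ∈ N := by
  have : Algebra.IsAlgebraic ℚ Qb := AlgebraicClosure.isAlgebraic ℚ
  have : IsAlgClosure ℚ Qb := ⟨inferInstance, inferInstance⟩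
  have : IsGalois ℚ Qb := IsAlgClosure.isGalois ℚ Qb
  rw [← InfiniteGalois.fixedField_fixingSubgroup N, IntermediateField.mem_fixedField_iff]
  intro s hs
  have h1 : g⁻¹ * s * g ∈ N.fixingSubgroup := by
    have := hN.conj_mem s hs g⁻¹
    rwa [inv_inv] at this
  have h2 := (IntermediateField.mem_fixingSubgroup_iff N _).mp h1 x hx
  have h3 : s (g x) = g ((g⁻¹ * s * g) x) := by
    simp [AlgEquiv.mul_apply]
  rw [h3, h2]

theorem apply_mem_sup {F N : IntermediateField ℚ Qb} (hN : N.fixingSubgroup.Normal) (g : GQ)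
    (hg : g ∈ F.fixingSubgroup) {x : Qb} (hx : x ∈ F ⊔ N) : g x ∈ F ⊔ N := by
  have h1 : (F ⊔ N).map (g : Qb →ₐ[ℚ] Qb) ≤ F ⊔ N := by
    rw [IntermediateField.map_sup]
    refine sup_le ?_ ?_
    · rintro _ ⟨y, hy, rfl⟩
      have h2 : g y = y := (IntermediateField.mem_fixingSubgroup_iff F g).mp hg y hy
      have h3 : g y ∈ F := by
        rw [h2]
        exact hy
      exact (le_sup_left : F ≤ F ⊔ N) h3
    · rintro _ ⟨y, hy, rfl⟩
      exact (le_sup_right : N ≤ F ⊔ N) (apply_mem_of_normal hN g hy)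
  exact h1 ⟨x, hx, rfl⟩

section Frob

variable (hdec : H93.DecStatement) (F : IntermediateField ℚ Qb) [FiniteDimensional ℚ F]

/-- A Frobenius of `F` at the valuation subring `x` (from (DEC)). -/
def frobQ (x : XS S) : GQ :=
  (hdec F inferInstance (x.prime : ℕ) x.prime.2 x.1 x.liesOver).choose

theorem frobQ_spec (x : XS S) :
    frobQ hdec F x ∈ x.1.decompositionSubgroup ℚ ∧ frobQ hdec F x ∈ F.fixingSubgroup ∧
      ∀ K : IntermediateField ℚ Qb, FiniteDimensional ℚ K → F ≤ K →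
        (∀ g ∈ F.fixingSubgroup, ∀ y ∈ K, g y ∈ K) →
        x.1.inertiaSubgroupIn ℚ ≤ K.fixingSubgroup →
        ∀ d : GQ, d ∈ x.1.decompositionSubgroup ℚ → d ∈ F.fixingSubgroup →
          ∃ k : ℕ, (frobQ hdec F x ^ k)⁻¹ * d ∈ K.fixingSubgroup :=
  (hdec F inferInstance (x.prime : ℕ) x.prime.2 x.1 x.liesOver).choose_spec

/-- The Frobenius as an element of `Gal(ℚ̄/F)`. -/
def frobF (x : XS S) : ↥F.fixingSubgroup := ⟨frobQ hdec F x, (frobQ_spec hdec F x).2.1⟩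

theorem frobF_fix (x : XS S) : frobF hdec F x • x = x := by
  apply Subtype.ext
  show frobQ hdec F x • x.1 = x.1
  exact MulAction.mem_stabilizer_iff.mp (frobQ_spec hdec F x).1

theorem frobF_gen (hF : F.IsUnramifiedOutside S) {N : IntermediateField ℚ Qb}
    (hN : N.IsUnramifiedOutside S) (hNn : N.fixingSubgroup.Normal) (x : XS S)
    (h : ↥F.fixingSubgroup) (hh : h • x = x) :
    ∃ i : ℕ, (frobF hdec F x ^ i)⁻¹ * h ∈ (H42.fieldDatum S F).sub N := by
  have hK := hF.sup hN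
  have hd : (h : GQ) ∈ x.1.decompositionSubgroup ℚ := by
    apply MulAction.mem_stabilizer_iff.mpr
    exact congrArg Subtype.val hh
  obtain ⟨k, hk⟩ := (frobQ_spec hdec F x).2.2 (F ⊔ N) hK.1 le_sup_left
    (fun g hg y hy => apply_mem_sup hNn g hg hy)
    (hK.2 x.prime x.prime_not_mem x.1 x.liesOver) (h : GQ) hd h.2
  refine ⟨k, ?_⟩
  rw [LevelDatum.mem_sub]
  exact IntermediateField.fixingSubgroup_antitone (le_sup_right : N ≤ F ⊔ N) hk

end Frob

/-! ### The divisor data of `P_S` over `Gal(ℚ̄/F)` -/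

/-- **The divisor data of `P_S`** for `Gal(ℚ̄/F)`, from (DEC) and (ORB), for any system `rep` of
representatives of the orbits of `Gal(ℚ̄/F)` on the valuation subrings outside `S`. -/
def divData (hdec : H93.DecStatement) (horb : H93.OrbStatement) (F : IntermediateField ℚ Qb)
    [FiniteDimensional ℚ F] (hF : F.IsUnramifiedOutside S) {V : Type} (rep : V → XS S)
    (hrep : ∀ x, ∃! v, ∃ g : ↥F.fixingSubgroup, g • rep v = x) :
    DivData (H42.fieldDatum S F) (H42.resF F (H42.PSx S)) (XS S) V where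
  dv := dvP S
  dv_smul σ m x := dvP_smul (σ : GQ) m x
  dv_inj := dvP_injective
  dv_fin m := dvP_fin horb F m
  rep := rep
  rep_unique := hrep
  frob v := frobF hdec F (rep v)
  frob_fix v := frobF_fix hdec F (rep v)
  frob_gen _ hN hNn v h hh := frobF_gen hdec F hF hN hNn (rep v) h hh

/-- helper56's (SAT), as a hypothesis (the statement of `H56.sat`). -/
def SatShape (p : ℕ) (S : Finset Nat.Primes) : Prop :=
  ∀ K : IntermediateField ℚ Qb, K.IsUnramifiedOutside S → ∀ b : ValuationSubring Qb → ℤ,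
    (∀ σ ∈ K.fixingSubgroup, ∀ A, b (σ • A) = b A) →
    (∃ T : Finset ℕ, ∀ ℓ : Nat.Primes, ℓ ∉ S → ∀ A : ValuationSubring Qb,
      A.LiesOverPrime (ℓ : ℕ) → b A ≠ 0 → (ℓ : ℕ) ∈ T) →
    ∃ m : ℕ, 0 < m ∧ ¬ p ∣ m ∧ ∃ (N : IntermediateField ℚ Qb) (x : Qb),
      N.IsUnramifiedOutside S ∧ x ∈ N ∧ x ≠ 0 ∧
      ∀ ℓ : Nat.Primes, ℓ ∉ S → ∀ A : ValuationSubring Qb, A.LiesOverPrime (ℓ : ℕ) →
        x / ((ℓ : ℕ) : Qb) ^ ((m : ℤ) * b A) ∈ A ∧ ((ℓ : ℕ) : Qb) ^ ((m : ℤ) * b A) / x ∈ A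

/-- (SAT) for the divisor data of `P_S`. -/
theorem divData_sat {p : ℕ} (hsat : SatShape p S) (hdec : H93.DecStatement)
    (horb : H93.OrbStatement) (F : IntermediateField ℚ Qb) [FiniteDimensional ℚ F]
    (hF : F.IsUnramifiedOutside S) {V : Type} (rep : V → XS S)
    (hrep : ∀ x, ∃! v, ∃ g : ↥F.fixingSubgroup, g • rep v = x) :
    (divData hdec horb F hF rep hrep).Sat p := by
  classical
  rintro f ⟨t, ht⟩ ⟨N, hN, hNn, hinvf⟩
  let b : ValuationSubring Qb → ℤ := fun A =>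
    if h : ∃ q : Nat.Primes, q ∉ S ∧ A.LiesOverPrime (q : ℕ) then f ⟨A, h⟩ else 0
  have hb : ∀ x : XS S, b x.1 = f x := fun x => by
    simp only [b]
    rw [dif_pos x.2]
    rfl
  have hinv : ∀ σ ∈ (F ⊔ N).fixingSubgroup, ∀ A, b (σ • A) = b A := by
    intro σ hσ A
    rw [IntermediateField.fixingSubgroup_sup] at hσ
    by_cases h : ∃ q : Nat.Primes, q ∉ S ∧ A.LiesOverPrime (q : ℕ)
    · have h' : ∃ q : Nat.Primes, q ∉ S ∧ (σ • A).LiesOverPrime (q : ℕ) := by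
        obtain ⟨q, hq, hA⟩ := h
        exact ⟨q, hq, H43.liesOverPrime_smul A σ hA⟩
      simp only [b]
      rw [dif_pos h, dif_pos h']
      exact hinvf ⟨σ, hσ.1⟩ hσ.2 ⟨A, h⟩
    · have h' : ¬ ∃ q : Nat.Primes, q ∉ S ∧ (σ • A).LiesOverPrime (q : ℕ) := by
        rintro ⟨q, hq, hA⟩
        apply h
        refine ⟨q, hq, ?_⟩
        have := H43.liesOverPrime_smul (σ • A) σ⁻¹ hA
        rwa [inv_smul_smul] at this
      simp only [b]
      rw [dif_neg h, dif_neg h']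
  have hfin : ∃ T : Finset ℕ, ∀ ℓ : Nat.Primes, ℓ ∉ S → ∀ A : ValuationSubring Qb,
      A.LiesOverPrime (ℓ : ℕ) → b A ≠ 0 → (ℓ : ℕ) ∈ T := by
    refine ⟨t.image fun y => (y.prime : ℕ), fun ℓ hℓ A hA hbA => ?_⟩
    have h : ∃ q : Nat.Primes, q ∉ S ∧ A.LiesOverPrime (q : ℕ) := ⟨ℓ, hℓ, hA⟩
    have hbA' : f ⟨A, h⟩ ≠ 0 := by
      simpa only [b, dif_pos h] using hbA
    obtain ⟨y, hy, g, hg⟩ := ht _ hbA'
    rw [Finset.mem_image]
    refine ⟨y, hy, ?_⟩
    have e1 : (g • y).prime = y.prime := XS.prime_smul_sub g y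
    rw [hg] at e1
    rw [← e1]
    exact XS.prime_eq ⟨A, h⟩ ℓ.2 hA
  obtain ⟨m, hm0, hpm, N', x₀, hN', hxN', hx0, hx⟩ := hsat (F ⊔ N) (hF.sup hN) b hinv hfin
  have hu : Units.mk0 x₀ hx0 ∈ H42.qsUnits S := ⟨N', hN', hxN'⟩
  refine ⟨m, hm0, hpm, (H42.qsToPs S).hom (H42.unitsRep.mk (Units.mk0 x₀ hx0) hu), fun x => ?_⟩
  show dvP S ((H42.qsToPs S).hom (H42.unitsRep.mk (Units.mk0 x₀ hx0) hu)) x = m * f x
  rw [dvP_qsToPs]
  obtain ⟨h1, h2⟩ := hx x.prime x.prime_not_mem x.1 x.liesOver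
  rw [hb x] at h1 h2
  exact ordQ_unique _ x h1 h2

end Fermat.Agent.S55.H11
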