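/-
Program C (S55), package C9b, leaf (hlam), steps (DICT-VS) + (H4) (helper11; route of helper56):
the finite places of `F` outside `S` (helper88's embedding model `H88.FinPlace ↥F`) as a system of
representatives of the orbits of `Gal(ℚ̄/F)` on the valuation subrings of `ℚ̄` outside `S`.

* `ballSub q j` : the valuation subring `{x | ‖j x‖ ≤ 1}` of an embedding `j : ℚ̄ →+* PadicAlgCl q`;
* `placeExt F v` : a chosen extension to `ℚ̄` of the embedding of the place `v` of `F`,
  `ballV F v` its unit ball, `centerInt_ballV` : its centre on `F` is the prime `dictEquiv v`;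
* `repV F VS hVS : {w // w ∉ VS} → XS S` and `repV_unique` : every valuation subring outside `S`
  is conjugate under `Gal(ℚ̄/F)` to the representative of exactly one place;
* (H4) `norm_placeExt_eq` : `‖placeExt F v (val y)‖ = (q⁻¹) ^ ordQ y (repV v)` for `y ∈ ℚ_S^×`.
-/
import Mathlib
import Fermat.Agent.S55.H11.DivInst
import Fermat.Agent.S55.H83.Dict
import Fermat.Agent.S55.H56.Sat

set_option autoImplicit false
set_option linter.unusedSectionVars false

open NumberField IsDedekindDomain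
open scoped Pointwise

noncomputable section

namespace Fermat.Agent.S55.H11

local notation "Qb" => AlgebraicClosure ℚ
local notation "GQ" => (AlgebraicClosure ℚ ≃ₐ[ℚ] AlgebraicClosure ℚ)

attribute [local instance] Fermat.Agent.S55.H88.factOfPrimes

/-! ### The unit ball of an embedding -/

section Ball

variable (q : ℕ) [Fact q.Prime]

/-- The valuation subring of `ℚ̄` cut out by an embedding into `PadicAlgCl q`. -/
def ballSub (j : Qb →+* PadicAlgCl q) : ValuationSubring Qb where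
  carrier := {x | ‖j x‖ ≤ 1}
  mul_mem' := by
    intro a b ha hb
    show ‖j (a * b)‖ ≤ 1
    rw [map_mul, norm_mul]
    exact mul_le_one₀ ha (norm_nonneg _) hb
  one_mem' := by
    show ‖j 1‖ ≤ 1
    rw [map_one, norm_one]
  add_mem' := by
    intro a b ha hb
    show ‖j (a + b)‖ ≤ 1
    rw [map_add]
    exact le_trans (PadicAlgCl.isNonarchimedean q (j a) (j b)) (max_le ha hb)
  zero_mem' := by
    show ‖j 0‖ ≤ 1
    rw [map_zero, norm_zero]
    exact zero_le_one
  neg_mem' := by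
    intro a ha
    show ‖j (-a)‖ ≤ 1
    rw [map_neg, norm_neg]
    exact ha
  mem_or_inv_mem' := by
    intro a
    by_cases h : ‖j a‖ ≤ 1
    · exact Or.inl h
    · right
      show ‖j a⁻¹‖ ≤ 1
      rw [map_inv₀, norm_inv]
      exact inv_le_one_of_one_le₀ (le_of_not_ge h)

variable {q}

theorem mem_ballSub {j : Qb →+* PadicAlgCl q} {x : Qb} : x ∈ ballSub q j ↔ ‖j x‖ ≤ 1 := Iff.rfl

theorem mem_nonunits_ballSub {j : Qb →+* PadicAlgCl q} {x : Qb} :
    x ∈ (ballSub q j).nonunits ↔ ‖j x‖ < 1 := by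
  rw [ValuationSubring.mem_nonunits_iff_or]
  constructor
  · rintro (rfl | h)
    · rw [map_zero, norm_zero]
      exact zero_lt_one
    · by_contra hge
      apply h
      show ‖j x⁻¹‖ ≤ 1
      rw [map_inv₀, norm_inv]
      exact inv_le_one_of_one_le₀ (le_of_not_gt hge)
  · intro h
    by_cases hx : x = 0
    · exact Or.inl hx
    · right
      intro hmem
      have h1 : ‖j x⁻¹‖ ≤ 1 := hmem
      rw [map_inv₀, norm_inv] at h1
      have h0 : 0 < ‖j x‖ := norm_pos_iff.mpr ((map_ne_zero j).mpr hx)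
      have h2 : 1 ≤ ‖j x‖ := (inv_le_one₀ h0).mp h1
      exact absurd h (not_lt.mpr h2)

theorem ballSub_liesOver (j : Qb →+* PadicAlgCl q) : (ballSub q j).LiesOverPrime q := by
  show ((q : ℕ) : Qb) ∈ (ballSub q j).nonunits
  rw [mem_nonunits_ballSub, map_natCast]
  exact H83.norm_natCast_padicAlgCl_lt_one q

/-- The centre of the unit ball on a number field `N ⊆ ℚ̄` is the prime of the restricted
embedding. -/
theorem centerInt_ballSub (N : IntermediateField ℚ Qb) [NumberField N] (j : Qb →+* PadicAlgCl q) :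
    H56.centerInt N (ballSub q j) = H83.primeOfEmb q (j.comp (algebraMap N Qb)) := by
  ext a
  rw [H56.mem_centerInt_iff, mem_nonunits_ballSub]
  rfl

end Ball

/-- The centre on `F` is invariant under `Gal(ℚ̄/F)`. -/
theorem centerInt_smul (F : IntermediateField ℚ Qb) (σ : GQ) (hσ : σ ∈ F.fixingSubgroup)
    (A : ValuationSubring Qb) : H56.centerInt F (σ • A) = H56.centerInt F A := by
  have hfix : ∀ a : 𝓞 F, σ (((a : F) : Qb)) = ((a : F) : Qb) := fun a =>
    (IntermediateField.mem_fixingSubgroup_iff F σ).mp hσ _ (a : F).2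
  have hfix' : ∀ a : 𝓞 F, σ⁻¹ (((a : F) : Qb)) = ((a : F) : Qb) := fun a =>
    (IntermediateField.mem_fixingSubgroup_iff F σ⁻¹).mp (F.fixingSubgroup.inv_mem hσ) _ (a : F).2
  ext a
  rw [H56.mem_centerInt_iff, H56.mem_centerInt_iff]
  constructor
  · intro h
    have h1 := H43.apply_mem_nonunits_smul (σ • A) σ⁻¹ h
    rwa [inv_smul_smul, hfix'] at h1
  · intro h
    have h1 := H43.apply_mem_nonunits_smul A σ h
    rwa [hfix] at h1

/-! ### The representative of a finite place -/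

section Place

variable (F : IntermediateField ℚ Qb) [NumberField F]

theorem isAlgebraic_top : Algebra.IsAlgebraic (↥F) Qb :=
  have : Algebra.IsAlgebraic ℚ Qb := AlgebraicClosure.isAlgebraic ℚ
  Algebra.IsAlgebraic.tower_top (K := ℚ) (↥F)

attribute [local instance] isAlgebraic_top

/-- A chosen extension to `ℚ̄` of the embedding of a finite place of `F`. -/
def placeExt (v : H88.FinPlace (↥F)) : Qb →+* PadicAlgCl (v.1 : ℕ) :=
  Classical.choose (H88.exists_extend (v.1 : ℕ) (k := ↥F) (K := Qb) v.emb)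

theorem placeExt_comp (v : H88.FinPlace (↥F)) :
    (placeExt F v).comp (algebraMap (↥F) Qb) = v.emb :=
  Classical.choose_spec (H88.exists_extend (v.1 : ℕ) (k := ↥F) (K := Qb) v.emb)

theorem placeExt_apply (v : H88.FinPlace (↥F)) (x : F) : placeExt F v (x : Qb) = v.emb x :=
  RingHom.congr_fun (placeExt_comp F v) x

/-- The valuation subring of `ℚ̄` of a finite place of `F` (the unit ball of `placeExt`). -/
def ballV (v : H88.FinPlace (↥F)) : ValuationSubring Qb := ballSub (v.1 : ℕ) (placeExt F v)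

theorem ballV_liesOver (v : H88.FinPlace (↥F)) : (ballV F v).LiesOverPrime (v.1 : ℕ) :=
  ballSub_liesOver _

theorem centerInt_ballV (v : H88.FinPlace (↥F)) :
    H56.centerInt F (ballV F v) = (H83.dictEquiv (↥F) v).asIdeal := by
  rw [ballV, centerInt_ballSub, placeExt_comp, H83.dictEquiv_apply, H83.heightOneOfEmb_asIdeal]

variable {S : Finset Nat.Primes} (VS : Finset (H88.FinPlace (↥F)))
  (hVS : ∀ w : H88.FinPlace (↥F), w ∈ VS ↔ w.1 ∈ S)

/-- **The representative of a finite place outside `S`.** -/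
def repV (v : {w : H88.FinPlace (↥F) // w ∉ VS}) : XS S :=
  ⟨ballV F v.1, v.1.1, fun h => v.2 ((hVS v.1).mpr h), ballV_liesOver F v.1⟩

theorem coe_repV (v : {w : H88.FinPlace (↥F) // w ∉ VS}) : (repV F VS hVS v).1 = ballV F v.1 :=
  rfl

theorem prime_repV (v : {w : H88.FinPlace (↥F) // w ∉ VS}) : (repV F VS hVS v).prime = v.1.1 := by
  apply Subtype.ext
  exact (repV F VS hVS v).prime_eq v.1.1.2 (ballV_liesOver F v.1)

/-- **(DICT-VS)** Every valuation subring of `ℚ̄` outside `S` is conjugate under `Gal(ℚ̄/F)` to the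
representative of exactly one finite place of `F` outside `S`. -/
theorem repV_unique (x : XS S) :
    ∃! v : {w : H88.FinPlace (↥F) // w ∉ VS}, ∃ g : ↥F.fixingSubgroup, g • repV F VS hVS v = x := by
  have hP0 : H56.centerInt F x.1 ≠ ⊥ := H56.centerInt_ne_bot F x.prime.2 x.liesOver
  let P' : HeightOneSpectrum (𝓞 F) := ⟨H56.centerInt F x.1, inferInstance, hP0⟩
  let w : H88.FinPlace (↥F) := (H83.dictEquiv (↥F)).symm P'
  have hw : H83.dictEquiv (↥F) w = P' := Equiv.apply_symm_apply _ _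
  have hcen : H56.centerInt F (ballV F w) = H56.centerInt F x.1 := by
    rw [centerInt_ballV, hw]
  -- the residue characteristic of `w`
  have hprime : w.1 = x.prime := by
    by_contra hne
    have hne' : ((w.1 : Nat.Primes) : ℕ) ≠ (x.prime : ℕ) := fun h' => hne (Subtype.ext h')
    have hcop : Nat.Coprime ((w.1 : Nat.Primes) : ℕ) (x.prime : ℕ) :=
      (Nat.coprime_primes w.1.2 x.prime.2).2 hne'
    obtain ⟨a, b, hab⟩ := Nat.isCoprime_iff_coprime.2 hcop
    have h1 : (((w.1 : Nat.Primes) : ℕ) : 𝓞 F) ∈ H56.centerInt F x.1 := by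
      rw [← hcen]
      exact H56.natCast_mem_centerInt F (ballV_liesOver F w)
    have h2 : (((x.prime : Nat.Primes) : ℕ) : 𝓞 F) ∈ H56.centerInt F x.1 :=
      H56.natCast_mem_centerInt F x.liesOver
    have h3 : (1 : 𝓞 F) ∈ H56.centerInt F x.1 := by
      have h4 : ((a : 𝓞 F) * (((w.1 : Nat.Primes) : ℕ) : 𝓞 F)
          + (b : 𝓞 F) * (((x.prime : Nat.Primes) : ℕ) : 𝓞 F)) = 1 := by
        have := congrArg (Int.cast : ℤ → 𝓞 F) hab
        push_cast at this
        exact this
      rw [← h4]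
      exact Ideal.add_mem _ (Ideal.mul_mem_left _ _ h1) (Ideal.mul_mem_left _ _ h2)
    exact (H56.centerInt_isPrime F x.1).ne_top ((Ideal.eq_top_iff_one _).2 h3)
  have hwVS : w ∉ VS := fun h => x.prime_not_mem (hprime ▸ (hVS w).mp h)
  refine ⟨⟨w, hwVS⟩, ?_, ?_⟩
  · obtain ⟨σ, hσ, hσA⟩ := H56.exists_smul_eq_of_centerInt_eq F (ballV F w) x.1 hcen
    exact ⟨⟨σ, hσ⟩, Subtype.ext hσA⟩
  · rintro ⟨w', hw'VS⟩ ⟨g, hg⟩
    have h1 : (g : GQ) • ballV F w' = x.1 := congrArg Subtype.val hg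
    have h2 : H56.centerInt F (ballV F w') = H56.centerInt F x.1 := by
      rw [← h1, centerInt_smul F g g.2]
    have h3 : H83.dictEquiv (↥F) w' = P' := by
      apply HeightOneSpectrum.ext
      rw [← centerInt_ballV, h2]
    have h4 : w' = w := by
      rw [← hw] at h3
      exact (H83.dictEquiv (↥F)).injective h3
    exact Subtype.ext h4

/-- **(H4)** The norm form of `ordQ` at the representative of a place: for `y ∈ ℚ_S^×`,
`‖placeExt v (val y)‖ = (q⁻¹) ^ ordQ y (repV v)`. -/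
theorem norm_placeExt_eq (v : {w : H88.FinPlace (↥F) // w ∉ VS}) (y : H42.QSx S) :
    ‖placeExt F v.1 ((H42.unitsRep.val y : Qbˣ) : Qb)‖ =
      (((v.1.1 : Nat.Primes) : ℕ) : ℝ)⁻¹ ^ ordQ y (repV F VS hVS v) := by
  obtain ⟨h1, h2⟩ := ordQ_spec y (repV F VS hVS v)
  rw [prime_repV] at h1 h2
  set m := ordQ y (repV F VS hVS v) with hm
  set u : Qb := ((H42.unitsRep.val y : Qbˣ) : Qb) with hu
  have hq : ‖placeExt F v.1 (((v.1.1 : Nat.Primes) : ℕ) : Qb)‖ =
      (((v.1.1 : Nat.Primes) : ℕ) : ℝ)⁻¹ := by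
    rw [map_natCast]
    exact H83.norm_natCast_padicAlgCl _
  have hq0 : (0 : ℝ) < (((v.1.1 : Nat.Primes) : ℕ) : ℝ)⁻¹ :=
    inv_pos.mpr (Nat.cast_pos.mpr v.1.1.2.pos)
  have hpos : (0 : ℝ) < (((v.1.1 : Nat.Primes) : ℕ) : ℝ)⁻¹ ^ m := zpow_pos hq0 m
  have e1 : ‖placeExt F v.1 (u / (((v.1.1 : Nat.Primes) : ℕ) : Qb) ^ m)‖ ≤ 1 := h1
  have e2 : ‖placeExt F v.1 ((((v.1.1 : Nat.Primes) : ℕ) : Qb) ^ m / u)‖ ≤ 1 := h2
  rw [map_div₀, map_zpow₀, norm_div, norm_zpow, hq] at e1 e2
  have hu0 : 0 < ‖placeExt F v.1 u‖ :=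
    norm_pos_iff.mpr ((map_ne_zero _).mpr (Units.ne_zero _))
  have e1' : ‖placeExt F v.1 u‖ ≤ (((v.1.1 : Nat.Primes) : ℕ) : ℝ)⁻¹ ^ m := by
    rwa [div_le_one hpos] at e1
  have e2' : (((v.1.1 : Nat.Primes) : ℕ) : ℝ)⁻¹ ^ m ≤ ‖placeExt F v.1 u‖ := by
    rwa [div_le_one hu0] at e2
  exact le_antisymm e1' e2'

end Place

end Fermat.Agent.S55.H11
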