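/-
Program C (S55), package C9b, leaf block L2-P (helper11): the UNCONDITIONAL L2-P package for
`P_S = ℚ_S^× / E_S` over `Gal(ℚ̄/F)`, `F` a number field unramified outside `S`.

For any system `rep : V → XS S` of representatives of the orbits of `Gal(ℚ̄/F)` on the valuation
subrings of `ℚ̄` over the primes outside `S` ("the places of `F` outside `S`"):

* `lamP F hF rep hrep v : Hlc (fieldDatum S F) (resF F (PSx S)) 2 →+ ℚ/ℤ`, the unramified invariant
  at `v`, with the explicit formula `lamP_formula`;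
* `lamP_pa` (Pa) : `H¹(G_S(F), P_S)` has no `p`-primary torsion;
* `lamP_pb` (Pb) : a `p`-primary class of `H²(G_S(F), P_S)` with vanishing invariants is zero;
* `lamP_pbfin` (Pbfin) : the invariants of a class vanish at almost all `v`.

Inputs: (DEC) helper85, (ORB) helper33, (VAL), (SAT) helper56, the divisor package `DivPkg`.
-/
import Mathlib
import Fermat.Agent.S55.H11.DivInst
import Fermat.Agent.S55.H85.Dec
import Fermat.Agent.S55.H33.Orb
import Fermat.Agent.S55.H56.Sat

set_option autoImplicit false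

open CategoryTheory
open scoped Pointwise
open Fermat.Agent.S55.H49

noncomputable section

namespace Fermat.Agent.S55.H11

local notation "Qb" => AlgebraicClosure ℚ
local notation "GQ" => (AlgebraicClosure ℚ ≃ₐ[ℚ] AlgebraicClosure ℚ)

variable {S : Finset Nat.Primes}

/-- helper56's (SAT) in the shape consumed by `divData_sat`. -/
theorem satShape {p : ℕ} [Fact p.Prime] (hpS : ExtCitation.pPrime p ∈ S) : SatShape p S :=
  fun _ hK b hinv hfin => H56.sat hpS hK b hinv hfin

/-! ### The orbits as an index set -/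

/-- The orbits of `Gal(ℚ̄/F)` on the valuation subrings of `ℚ̄` outside `S`: the places of `F`
outside `S`. -/
abbrev OrbS (S : Finset Nat.Primes) (F : IntermediateField ℚ Qb) : Type :=
  MulAction.orbitRel.Quotient ↥F.fixingSubgroup (XS S)

/-- A representative of an orbit. -/
def orbRep {F : IntermediateField ℚ Qb} (v : OrbS S F) : XS S := Quotient.out v

theorem orbRep_unique (F : IntermediateField ℚ Qb) (x : XS S) :
    ∃! v : OrbS S F, ∃ g : ↥F.fixingSubgroup, g • orbRep v = x := by
  refine ⟨Quotient.mk (MulAction.orbitRel ↥F.fixingSubgroup (XS S)) x, ?_, ?_⟩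
  · have h1 : (MulAction.orbitRel ↥F.fixingSubgroup (XS S)).r
        (Quotient.out (Quotient.mk (MulAction.orbitRel ↥F.fixingSubgroup (XS S)) x)) x :=
      Quotient.exact (Quotient.out_eq _)
    obtain ⟨g, hg⟩ := h1
    refine ⟨g⁻¹, ?_⟩
    show g⁻¹ • Quotient.out (Quotient.mk (MulAction.orbitRel ↥F.fixingSubgroup (XS S)) x) = x
    rw [← hg, inv_smul_smul]
  · rintro v ⟨g, hg⟩
    have h1 : Quotient.mk (MulAction.orbitRel ↥F.fixingSubgroup (XS S)) x =
        Quotient.mk (MulAction.orbitRel ↥F.fixingSubgroup (XS S)) (Quotient.out v) :=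
      Quotient.sound ⟨g, hg⟩
    rw [h1, Quotient.out_eq]

/-! ### The package -/

section Package

variable (F : IntermediateField ℚ Qb) [FiniteDimensional ℚ F] (hF : F.IsUnramifiedOutside S)
  {V : Type} (rep : V → XS S) (hrep : ∀ x, ∃! v, ∃ g : ↥F.fixingSubgroup, g • rep v = x)

/-- The divisor data of `P_S` over `Gal(ℚ̄/F)` (unconditional). -/
def psData : DivData (H42.fieldDatum S F) (H42.resF F (H42.PSx S)) (XS S) V :=
  divData H85.decStatement H33.orbStatement F hF rep hrep

theorem psData_sat {p : ℕ} [Fact p.Prime] (hpS : ExtCitation.pPrime p ∈ S) :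
    (psData F hF rep hrep).Sat p :=
  divData_sat (satShape hpS) H85.decStatement H33.orbStatement F hF rep hrep

/-- The Frobenius of `F` at the representative of `v`. -/
def frobP (v : V) : ↥F.fixingSubgroup := frobF H85.decStatement F (rep v)

/-- **The unramified invariant at `v`** on `H²(G_S(F), P_S)`. -/
def lamP (v : V) : Hlc (H42.fieldDatum S F) (H42.resF F (H42.PSx S)) 2 →+ AddCircle (1 : ℚ) :=
  (psData F hF rep hrep).lam (H42.fieldDatum_finiteIndex S F) v

/-- **(FORMULA)**: the invariant of the class of a level-`N` cocycle `z` is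
`(1/n) ∑_{k<n} ord_{rep v} z(φ^k, φ)` for `φ` the Frobenius at `v` and any `n > 0` with
`φ ^ n` in the level. -/
theorem lamP_formula (v : V)
    (z : cyc (lcComplex (H42.fieldDatum S F) (H42.resF F (H42.PSx S))) 2)
    {N : IntermediateField ℚ Qb} (hN : N.IsUnramifiedOutside S) (hNn : N.fixingSubgroup.Normal)
    (hc : IsLCAt ((H42.fieldDatum S F).sub N) (H42.resF F (H42.PSx S)) (lcVal z)) {n : ℕ}
    (hn : 0 < n) (hfn : frobP F rep v ^ n ∈ (H42.fieldDatum S F).sub N) :
    lamP F hF rep hrep v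
        ((cls (lcComplex (H42.fieldDatum S F) (H42.resF F (H42.PSx S))) 2).hom z)
      = ((((∑ k ∈ Finset.range n,
          (psData F hF rep hrep).dv (lcVal z ![frobP F rep v ^ k, frobP F rep v]) (rep v) : ℤ) : ℚ)
            / (n : ℚ) : ℚ) : AddCircle (1 : ℚ)) :=
  (psData F hF rep hrep).lam_cls_eq (H42.fieldDatum_finiteIndex S F) v z hN hNn hc hn hfn

/-- **(Pbfin)**. -/
theorem lamP_pbfin (c : Hlc (H42.fieldDatum S F) (H42.resF F (H42.PSx S)) 2) :
    ∃ W : Finset V, ∀ v, v ∉ W → lamP F hF rep hrep v c = 0 :=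
  (psData F hF rep hrep).pbfin (H42.fieldDatum_finiteIndex S F) c

/-- **(Pb)**. -/
theorem lamP_pb {p : ℕ} [Fact p.Prime] (hpS : ExtCitation.pPrime p ∈ S)
    (c : Hlc (H42.fieldDatum S F) (H42.resF F (H42.PSx S)) 2) (hc : ∃ k : ℕ, p ^ k • c = 0)
    (h : ∀ v, lamP F hF rep hrep v c = 0) : c = 0 :=
  DivData.pb (H42.fieldDatum_finiteIndex S F) (Fact.out : p.Prime) (psData_sat F hF rep hrep hpS)
    c hc h

end Package

/-- The divisor map of `psData` is the valuation map `dvP`. -/
theorem psData_dv (F : IntermediateField ℚ Qb) [FiniteDimensional ℚ F]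
    (hF : F.IsUnramifiedOutside S) {V : Type} (rep : V → XS S)
    (hrep : ∀ x, ∃! v, ∃ g : ↥F.fixingSubgroup, g • rep v = x) (m : H42.PSx S) :
    (psData F hF rep hrep).dv m = dvP S m := rfl

/-- **(Pa)**: `H¹(G_S(F), P_S)` has no `p`-primary torsion. -/
theorem ps_pa {p : ℕ} [Fact p.Prime] (hpS : ExtCitation.pPrime p ∈ S)
    (F : IntermediateField ℚ Qb) (hF : F.IsUnramifiedOutside S)
    (c : Hlc (H42.fieldDatum S F) (H42.resF F (H42.PSx S)) 1) (hc : ∃ k : ℕ, p ^ k • c = 0) :
    c = 0 := by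
  have := hF.1
  exact DivData.pa (H42.fieldDatum_finiteIndex S F) (Fact.out : p.Prime)
    (psData_sat F hF (orbRep (F := F)) (orbRep_unique F) hpS) c hc

/-! ### Extension by zero to an index set containing the places above `S`

The shape of `H70.GSArith.Good` : `W` any type of places with a finite subset `VS` ("above `S`"),
`rep` a system of representatives indexed by the complement of `VS`, `pp` the projection to the
`p`-primary component. -/

section Ext

variable (F : IntermediateField ℚ Qb) [FiniteDimensional ℚ F] (hF : F.IsUnramifiedOutside S)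
  {W : Type} (VS : Finset W) (rep : {w : W // w ∉ VS} → XS S)
  (hrep : ∀ x, ∃! v, ∃ g : ↥F.fixingSubgroup, g • rep v = x)

open Classical in
/-- The invariant at `w`, extended by zero to the places in `VS`. -/
def lamExt (w : W) : Hlc (H42.fieldDatum S F) (H42.resF F (H42.PSx S)) 2 →+ AddCircle (1 : ℚ) :=
  if h : w ∈ VS then 0 else lamP F hF rep hrep ⟨w, h⟩

theorem lamExt_of_mem {w : W} (h : w ∈ VS) : lamExt F hF VS rep hrep w = 0 := dif_pos h

theorem lamExt_of_not_mem {w : W} (h : w ∉ VS) :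
    lamExt F hF VS rep hrep w = lamP F hF rep hrep ⟨w, h⟩ := dif_neg h

/-- (Pbfin) in the shape of `H70.GSArith.Good.hPbfin`. -/
theorem lamExt_pbfin (pp : AddCircle (1 : ℚ) →+ AddCircle (1 : ℚ))
    (c : Hlc (H42.fieldDatum S F) (H42.resF F (H42.PSx S)) 2) :
    ∃ W' : Finset W, ∀ w, w ∉ W' → pp (lamExt F hF VS rep hrep w c) = 0 := by
  classical
  obtain ⟨W₀, hW₀⟩ := lamP_pbfin F hF rep hrep c
  refine ⟨W₀.image Subtype.val, fun w hw => ?_⟩
  by_cases h : w ∈ VS
  · rw [lamExt_of_mem F hF VS rep hrep h, AddMonoidHom.zero_apply, map_zero]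
  · rw [lamExt_of_not_mem F hF VS rep hrep h, hW₀ ⟨w, h⟩ fun hmem =>
      hw (Finset.mem_image.mpr ⟨⟨w, h⟩, hmem, rfl⟩), map_zero]

/-- (Pb) in the shape of `H70.GSArith.Good.hPb`. -/
theorem lamExt_pb {p : ℕ} [Fact p.Prime] (hpS : ExtCitation.pPrime p ∈ S)
    (pp : AddCircle (1 : ℚ) →+ AddCircle (1 : ℚ))
    (hpp : ∀ a : AddCircle (1 : ℚ), (∃ k : ℕ, p ^ k • a = 0) → pp a = a)
    (c : Hlc (H42.fieldDatum S F) (H42.resF F (H42.PSx S)) 2) (hc : ∃ k : ℕ, p ^ k • c = 0)
    (h : ∀ w, w ∉ VS → pp (lamExt F hF VS rep hrep w c) = 0) : c = 0 := by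
  refine lamP_pb F hF rep hrep hpS c hc fun v => ?_
  have h1 := h v.1 v.2
  rw [lamExt_of_not_mem F hF VS rep hrep v.2] at h1
  obtain ⟨k, hk⟩ := hc
  have h2 : pp (lamP F hF rep hrep v c) = lamP F hF rep hrep v c :=
    hpp _ ⟨k, by rw [← map_nsmul, hk, map_zero]⟩
  rw [← h2]
  exact h1

end Ext

end Fermat.Agent.S55.H11
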