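/-
Program C (S55), package C9b, leaf block L2-P (helper11): the L2-P package for
`P_S = ℚ_S^× / E_S` over `Gal(ℚ̄/F)` WITH PRESCRIBED FROBENIUS ELEMENTS.

(helper56's referee finding: the unramified invariant formula computes the local invariant only
when `frob v` is THE Frobenius at `rep v`, not merely a generator of the decomposition group modulo
the levels.  So here `frob : V → Gal(ℚ̄/ℚ)` is an INPUT, subject to `IsDecGen F (rep v) (frob v)`,
the conclusion of (DEC); `DivFinal.lean` is the special case of a chosen generator.)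

* `lamF F hF rep hrep frob hfrob v : Hlc (fieldDatum S F) (resF F (PSx S)) 2 →+ ℚ/ℤ`;
* `lamF_formula` (cocycles of `P_S`), `lamF_gsPi2` (cocycles of `ℚ_S^×`: the input of (hlam));
* `lamF_pb`, `lamF_pbfin`; `lamFExt`, `lamFExt_pb`, `lamFExt_pbfin` (extension by zero over `VS`,
  composed with a `p`-primary projection: the shapes of `H70.GSArith.Good`).
-/
import Mathlib
import Fermat.Agent.S55.H11.DivInst
import Fermat.Agent.S55.H33.Orb
import Fermat.Agent.S55.H56.Sat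
import Fermat.Agent.S55.H70.GSCoh

set_option autoImplicit false

open CategoryTheory
open scoped Pointwise
open Fermat.Agent.S55.H49

noncomputable section

namespace Fermat.Agent.S55.H11

local notation "Qb" => AlgebraicClosure ℚ
local notation "GQ" => (AlgebraicClosure ℚ ≃ₐ[ℚ] AlgebraicClosure ℚ)

variable {S : Finset Nat.Primes}

/-- `φ` is an element of the decomposition group of `x` in `Gal(ℚ̄/F)` generating it modulo every
finite level in which `x` is unramified: the conclusion of (DEC) for `φ`. -/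
def IsDecGen (F : IntermediateField ℚ Qb) (x : XS S) (φ : GQ) : Prop :=
  φ ∈ x.1.decompositionSubgroup ℚ ∧ φ ∈ F.fixingSubgroup ∧
    ∀ K : IntermediateField ℚ Qb, FiniteDimensional ℚ K → F ≤ K →
      (∀ g ∈ F.fixingSubgroup, ∀ y ∈ K, g y ∈ K) →
      x.1.inertiaSubgroupIn ℚ ≤ K.fixingSubgroup →
      ∀ d : GQ, d ∈ x.1.decompositionSubgroup ℚ → d ∈ F.fixingSubgroup →
        ∃ k : ℕ, (φ ^ k)⁻¹ * d ∈ K.fixingSubgroup

/-- (DEC) provides such elements. -/
theorem exists_isDecGen (hdec : H93.DecStatement) (F : IntermediateField ℚ Qb)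
    [FiniteDimensional ℚ F] (x : XS S) : ∃ φ : GQ, IsDecGen F x φ :=
  hdec F inferInstance (x.prime : ℕ) x.prime.2 x.1 x.liesOver

theorem IsDecGen.fix {F : IntermediateField ℚ Qb} {x : XS S} {φ : GQ} (h : IsDecGen F x φ) :
    (⟨φ, h.2.1⟩ : ↥F.fixingSubgroup) • x = x := by
  apply Subtype.ext
  show φ • x.1 = x.1
  exact MulAction.mem_stabilizer_iff.mp h.1

theorem IsDecGen.gen {F : IntermediateField ℚ Qb} {x : XS S} {φ : GQ} (h : IsDecGen F x φ)
    (hF : F.IsUnramifiedOutside S) {N : IntermediateField ℚ Qb} (hN : N.IsUnramifiedOutside S)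
    (hNn : N.fixingSubgroup.Normal) (d : ↥F.fixingSubgroup) (hd : d • x = x) :
    ∃ i : ℕ, ((⟨φ, h.2.1⟩ : ↥F.fixingSubgroup) ^ i)⁻¹ * d ∈ (H42.fieldDatum S F).sub N := by
  have hK := hF.sup hN
  have hd' : (d : GQ) ∈ x.1.decompositionSubgroup ℚ := by
    apply MulAction.mem_stabilizer_iff.mpr
    exact congrArg Subtype.val hd
  obtain ⟨k, hk⟩ := h.2.2 (F ⊔ N) hK.1 le_sup_left
    (fun g hg y hy => apply_mem_sup hNn g hg hy)
    (hK.2 x.prime x.prime_not_mem x.1 x.liesOver) (d : GQ) hd' d.2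
  refine ⟨k, ?_⟩
  rw [LevelDatum.mem_sub]
  exact IntermediateField.fixingSubgroup_antitone (le_sup_right : N ≤ F ⊔ N) hk

section Package

variable (F : IntermediateField ℚ Qb) [FiniteDimensional ℚ F] (hF : F.IsUnramifiedOutside S)
  {V : Type} (rep : V → XS S) (hrep : ∀ x, ∃! v, ∃ g : ↥F.fixingSubgroup, g • rep v = x)
  (frob : V → GQ) (hfrob : ∀ v, IsDecGen F (rep v) (frob v))

/-- The prescribed Frobenius, as an element of `Gal(ℚ̄/F)`. -/
def frobG (v : V) : ↥F.fixingSubgroup := ⟨frob v, (hfrob v).2.1⟩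

omit [FiniteDimensional ℚ F] in
theorem coe_frobG (v : V) : (frobG F rep frob hfrob v : GQ) = frob v := rfl

/-- The divisor data of `P_S` over `Gal(ℚ̄/F)` with prescribed Frobenius elements. -/
def psDataF : DivData (H42.fieldDatum S F) (H42.resF F (H42.PSx S)) (XS S) V where
  dv := dvP S
  dv_smul σ m x := dvP_smul (σ : GQ) m x
  dv_inj := dvP_injective
  dv_fin m := dvP_fin H33.orbStatement F m
  rep := rep
  rep_unique := hrep
  frob := frobG F rep frob hfrob
  frob_fix v := (hfrob v).fix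
  frob_gen _ hN hNn v h hh := (hfrob v).gen hF hN hNn h hh

theorem psDataF_dv (m : H42.PSx S) : (psDataF F hF rep hrep frob hfrob).dv m = dvP S m := rfl

theorem psDataF_sat {p : ℕ} [Fact p.Prime] (hpS : ExtCitation.pPrime p ∈ S) :
    (psDataF F hF rep hrep frob hfrob).Sat p := by
  classical
  rintro f ⟨t, ht⟩ ⟨N, hN, hNn, hinvf⟩
  let b : ValuationSubring Qb → ℤ := fun A =>
    if h : ∃ q : Nat.Primes, q ∉ S ∧ A.LiesOverPrime (q : ℕ) then f ⟨A, h⟩ else 0
  have hb : ∀ x : XS S, b x.1 = f x := fun x => by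
    simp only [b]
    rw [dif_pos x.2]
    rfl
  have hinv : ∀ σ ∈ (F ⊔ N).fixingSubgroup, ∀ A, b (σ • A) = b A := by
    intro σ hσ A
    rw [IntermediateField.fixingSubgroup_sup] at hσ
    by_cases h : ∃ q : Nat.Primes, q ∉ S ∧ A.LiesOverPrime (q : ℕ)
    · have h' : ∃ q : Nat.Primes, q ∉ S ∧ (σ • A).LiesOverPrime (q : ℕ) := by
        obtain ⟨q, hq, hA⟩ := h
        exact ⟨q, hq, H43.liesOverPrime_smul A σ hA⟩
      simp only [b]
      rw [dif_pos h, dif_pos h']
      exact hinvf ⟨σ, hσ.1⟩ hσ.2 ⟨A, h⟩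
    · have h' : ¬ ∃ q : Nat.Primes, q ∉ S ∧ (σ • A).LiesOverPrime (q : ℕ) := by
        rintro ⟨q, hq, hA⟩
        apply h
        refine ⟨q, hq, ?_⟩
        have := H43.liesOverPrime_smul (σ • A) σ⁻¹ hA
        rwa [inv_smul_smul] at this
      simp only [b]
      rw [dif_neg h, dif_neg h']
  have hfin : ∃ T : Finset ℕ, ∀ ℓ : Nat.Primes, ℓ ∉ S → ∀ A : ValuationSubring Qb,
      A.LiesOverPrime (ℓ : ℕ) → b A ≠ 0 → (ℓ : ℕ) ∈ T := by
    refine ⟨t.image fun y => (y.prime : ℕ), fun ℓ hℓ A hA hbA => ?_⟩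
    have h : ∃ q : Nat.Primes, q ∉ S ∧ A.LiesOverPrime (q : ℕ) := ⟨ℓ, hℓ, hA⟩
    have hbA' : f ⟨A, h⟩ ≠ 0 := by
      simpa only [b, dif_pos h] using hbA
    obtain ⟨y, hy, g, hg⟩ := ht _ hbA'
    rw [Finset.mem_image]
    refine ⟨y, hy, ?_⟩
    have e1 : (g • y).prime = y.prime := XS.prime_smul_sub g y
    rw [hg] at e1
    rw [← e1]
    exact XS.prime_eq ⟨A, h⟩ ℓ.2 hA
  obtain ⟨m, hm0, hpm, N', x₀, hN', hxN', hx0, hx⟩ := H56.sat hpS (hF.sup hN) b hinv hfin
  have hu : Units.mk0 x₀ hx0 ∈ H42.qsUnits S := ⟨N', hN', hxN'⟩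
  refine ⟨m, hm0, hpm, (H42.qsToPs S).hom (H42.unitsRep.mk (Units.mk0 x₀ hx0) hu), fun x => ?_⟩
  show dvP S ((H42.qsToPs S).hom (H42.unitsRep.mk (Units.mk0 x₀ hx0) hu)) x = m * f x
  rw [dvP_qsToPs]
  obtain ⟨h1, h2⟩ := hx x.prime x.prime_not_mem x.1 x.liesOver
  rw [hb x] at h1 h2
  exact ordQ_unique _ x h1 h2

/-- **The unramified invariant at `v`** on `H²(G_S(F), P_S)`, for the prescribed Frobenius. -/
def lamF (v : V) : Hlc (H42.fieldDatum S F) (H42.resF F (H42.PSx S)) 2 →+ AddCircle (1 : ℚ) :=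
  (psDataF F hF rep hrep frob hfrob).lam (H42.fieldDatum_finiteIndex S F) v

/-- **(FORMULA)** on cocycles of `P_S`. -/
theorem lamF_formula (v : V)
    (z : cyc (lcComplex (H42.fieldDatum S F) (H42.resF F (H42.PSx S))) 2)
    {N : IntermediateField ℚ Qb} (hN : N.IsUnramifiedOutside S) (hNn : N.fixingSubgroup.Normal)
    (hc : IsLCAt ((H42.fieldDatum S F).sub N) (H42.resF F (H42.PSx S)) (lcVal z)) {n : ℕ}
    (hn : 0 < n) (hfn : frobG F rep frob hfrob v ^ n ∈ (H42.fieldDatum S F).sub N) :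
    lamF F hF rep hrep frob hfrob v
        ((cls (lcComplex (H42.fieldDatum S F) (H42.resF F (H42.PSx S))) 2).hom z)
      = ((((∑ k ∈ Finset.range n,
          (psDataF F hF rep hrep frob hfrob).dv
            (lcVal z ![frobG F rep frob hfrob v ^ k, frobG F rep frob hfrob v]) (rep v) : ℤ) : ℚ)
            / (n : ℚ) : ℚ) : AddCircle (1 : ℚ)) :=
  (psDataF F hF rep hrep frob hfrob).lam_cls_eq (H42.fieldDatum_finiteIndex S F) v z hN hNn hc hn
    hfn

/-- **(Pbfin)**. -/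
theorem lamF_pbfin (c : Hlc (H42.fieldDatum S F) (H42.resF F (H42.PSx S)) 2) :
    ∃ W : Finset V, ∀ v, v ∉ W → lamF F hF rep hrep frob hfrob v c = 0 :=
  (psDataF F hF rep hrep frob hfrob).pbfin (H42.fieldDatum_finiteIndex S F) c

/-- **(Pb)**. -/
theorem lamF_pb {p : ℕ} [Fact p.Prime] (hpS : ExtCitation.pPrime p ∈ S)
    (c : Hlc (H42.fieldDatum S F) (H42.resF F (H42.PSx S)) 2) (hc : ∃ k : ℕ, p ^ k • c = 0)
    (h : ∀ v, lamF F hF rep hrep frob hfrob v c = 0) : c = 0 :=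
  DivData.pb (H42.fieldDatum_finiteIndex S F) (Fact.out : p.Prime)
    (psDataF_sat F hF rep hrep frob hfrob hpS) c hc h

/-- The order at `x` of a value of a `ℚ_S^×`-valued cochain of `Gal(ℚ̄/F)`. -/
def ordG (m : H42.resF F (H42.QSx S)) (x : XS S) : ℤ :=
  ordQ (S := S) m x

omit [FiniteDimensional ℚ F] in
theorem ordG_eq (m : H42.QSx S) (x : XS S) : ordG F m x = ordQ m x := rfl

theorem psDataF_dv_g (m : H42.resF F (H42.QSx S)) (x : XS S) :
    (psDataF F hF rep hrep frob hfrob).dv ((H42.gsShortComplexF S F).g.hom m) x = ordG F m x := by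
  have h1 : (H42.gsShortComplexF S F).g.hom m = (H42.qsToPs S).hom m := rfl
  rw [h1]
  show dvP S ((H42.qsToPs S).hom m) x = ordQ (S := S) m x
  rw [dvP_qsToPs]
  rfl

/-- **The unramified invariant formula on `H²(G_S(F), ℚ_S^×)`**: for a `2`-cocycle `z` of level
`N` with values in `ℚ_S^×`, the invariant at `v` of the image of its class in `H²(G_S(F), P_S)` is
`(1/n) ∑_{k<n} ord_{rep v} z(φ^k, φ)`, `φ = frob v`, `φ ^ n` in the level. -/
theorem lamF_gsPi2 (v : V)
    (z : cyc (lcComplex (H42.fieldDatum S F) (H42.resF F (H42.QSx S))) 2)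
    {N : IntermediateField ℚ Qb} (hN : N.IsUnramifiedOutside S) (hNn : N.fixingSubgroup.Normal)
    (hc : IsLCAt ((H42.fieldDatum S F).sub N) (H42.resF F (H42.QSx S)) (lcVal z)) {n : ℕ}
    (hn : 0 < n) (hfn : frobG F rep frob hfrob v ^ n ∈ (H42.fieldDatum S F).sub N) :
    lamF F hF rep hrep frob hfrob v (H70.gsPi2 F
        ((cls (lcComplex (H42.fieldDatum S F) (H42.resF F (H42.QSx S))) 2).hom z))
      = ((((∑ k ∈ Finset.range n,
          ordG F (lcVal z ![frobG F rep frob hfrob v ^ k, frobG F rep frob hfrob v]) (rep v) : ℤ)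
            : ℚ) / (n : ℚ) : ℚ) : AddCircle (1 : ℚ)) := by
  have h1 : H70.gsPi2 F
      ((cls (lcComplex (H42.fieldDatum S F) (H42.resF F (H42.QSx S))) 2).hom z) =
      (cls (lcComplex (H42.fieldDatum S F) (H42.resF F (H42.PSx S))) 2).hom
        (cycMap (lcMapCoeff (H42.fieldDatum S F) (H42.gsShortComplexF S F).g) 2 z) :=
    H99.lcG_cls (H42.fieldDatum S F) (X := H42.gsShortComplexF S F) 2 z
  have hc' : IsLCAt ((H42.fieldDatum S F).sub N) (H42.resF F (H42.PSx S))
      (lcVal (cycMap (lcMapCoeff (H42.fieldDatum S F) (H42.gsShortComplexF S F).g) 2 z)) := by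
    refine ⟨fun g s hs => ?_, fun g s hs => ?_⟩
    · exact congrArg (H42.gsShortComplexF S F).g.hom (hc.1 g s hs)
    · have h2 := hc.2 g s hs
      have h3 := Rep.hom_comm_apply (H42.gsShortComplexF S F).g s (lcVal z g)
      exact h3.symm.trans (congrArg (H42.gsShortComplexF S F).g.hom h2)
  have hsum : (∑ k ∈ Finset.range n, (psDataF F hF rep hrep frob hfrob).dv
        (lcVal (cycMap (lcMapCoeff (H42.fieldDatum S F) (H42.gsShortComplexF S F).g) 2 z)
          ![frobG F rep frob hfrob v ^ k, frobG F rep frob hfrob v]) (rep v)) =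
      ∑ k ∈ Finset.range n,
        ordG F (lcVal z ![frobG F rep frob hfrob v ^ k, frobG F rep frob hfrob v]) (rep v) :=
    Finset.sum_congr rfl fun k _ =>
      psDataF_dv_g F hF rep hrep frob hfrob
        (lcVal z ![frobG F rep frob hfrob v ^ k, frobG F rep frob hfrob v]) (rep v)
  rw [h1, lamF_formula F hF rep hrep frob hfrob v _ hN hNn hc' hn hfn, hsum]

end Package

/-! ### Extension by zero to an index set containing the places above `S` -/

section Ext

variable (F : IntermediateField ℚ Qb) [FiniteDimensional ℚ F] (hF : F.IsUnramifiedOutside S)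
  {W : Type} (VS : Finset W) (rep : {w : W // w ∉ VS} → XS S)
  (hrep : ∀ x, ∃! v, ∃ g : ↥F.fixingSubgroup, g • rep v = x)
  (frob : {w : W // w ∉ VS} → GQ) (hfrob : ∀ v, IsDecGen F (rep v) (frob v))

open Classical in
/-- The invariant at `w`, extended by zero to the places in `VS`. -/
def lamFExt (w : W) : Hlc (H42.fieldDatum S F) (H42.resF F (H42.PSx S)) 2 →+ AddCircle (1 : ℚ) :=
  if h : w ∈ VS then 0 else lamF F hF rep hrep frob hfrob ⟨w, h⟩

theorem lamFExt_of_mem {w : W} (h : w ∈ VS) : lamFExt F hF VS rep hrep frob hfrob w = 0 :=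
  dif_pos h

theorem lamFExt_of_not_mem {w : W} (h : w ∉ VS) :
    lamFExt F hF VS rep hrep frob hfrob w = lamF F hF rep hrep frob hfrob ⟨w, h⟩ := dif_neg h

/-- (Pbfin) in the shape of `H70.GSArith.Good.hPbfin`. -/
theorem lamFExt_pbfin (pp : AddCircle (1 : ℚ) →+ AddCircle (1 : ℚ))
    (c : Hlc (H42.fieldDatum S F) (H42.resF F (H42.PSx S)) 2) :
    ∃ W' : Finset W, ∀ w, w ∉ W' → pp (lamFExt F hF VS rep hrep frob hfrob w c) = 0 := by
  classical
  obtain ⟨W₀, hW₀⟩ := lamF_pbfin F hF rep hrep frob hfrob c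
  refine ⟨W₀.image Subtype.val, fun w hw => ?_⟩
  by_cases h : w ∈ VS
  · rw [lamFExt_of_mem F hF VS rep hrep frob hfrob h, AddMonoidHom.zero_apply, map_zero]
  · rw [lamFExt_of_not_mem F hF VS rep hrep frob hfrob h, hW₀ ⟨w, h⟩ fun hmem =>
      hw (Finset.mem_image.mpr ⟨⟨w, h⟩, hmem, rfl⟩), map_zero]

/-- (Pb) in the shape of `H70.GSArith.Good.hPb`. -/
theorem lamFExt_pb {p : ℕ} [Fact p.Prime] (hpS : ExtCitation.pPrime p ∈ S)
    (pp : AddCircle (1 : ℚ) →+ AddCircle (1 : ℚ))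
    (hpp : ∀ a : AddCircle (1 : ℚ), (∃ k : ℕ, p ^ k • a = 0) → pp a = a)
    (c : Hlc (H42.fieldDatum S F) (H42.resF F (H42.PSx S)) 2) (hc : ∃ k : ℕ, p ^ k • c = 0)
    (h : ∀ w, w ∉ VS → pp (lamFExt F hF VS rep hrep frob hfrob w c) = 0) : c = 0 := by
  refine lamF_pb F hF rep hrep frob hfrob hpS c hc fun v => ?_
  have h1 := h v.1 v.2
  rw [lamFExt_of_not_mem F hF VS rep hrep frob hfrob v.2] at h1
  obtain ⟨k, hk⟩ := hc
  have h2 : pp (lamF F hF rep hrep frob hfrob v c) = lamF F hF rep hrep frob hfrob v c :=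
    hpp _ ⟨k, by rw [← map_nsmul, hk, map_zero]⟩
  rw [← h2]
  exact h1

end Ext

end Fermat.Agent.S55.H11
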