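/-
Program C (S55), package C9b, leaf (A3) (helper11): THE INSTANTIATED INVARIANTS `lam v` ON
`H²_lc(G_S(F), P_S)` AT THE FINITE PLACES OF `F`, in the shape of `H70.LamStatement`.

* `frobX F x` : THE `F`-Frobenius at the valuation subring `x` (helper56's `H56.exists_frobenius`),
  with `frobX_spec` and `isDecGen_frobX`;
* `repS F`, `frobS F` : the representatives `repV` and their Frobenius elements, indexed by the
  finite places of `F` outside `H88.sPlaces ↥F S`;
* `lamV F hF pp : H88.FinPlace ↥F → HP S F 2 →+ ℚ/ℤ` (`pp ∘ lamFExt`), `lamV_of_not_mem`;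
* `HlamLeaf S pp F hF` : the unramified invariant formula (the last conjunct of
  `H70.LamStatement`, verbatim, for `lamV`);
* `lamStatement_of_hlam` : `H70.LamStatement p S pp` from `HlamLeaf` ((Pa), (Pb), (Pb-fin) are
  discharged here).
-/
import Mathlib
import Fermat.Agent.S55.H11.DivFrob
import Fermat.Agent.S55.H11.DivFinal
import Fermat.Agent.S55.H11.DictVS
import Fermat.Agent.S55.H56.Frobenius
import Fermat.Agent.S55.H70.GSFinal

set_option autoImplicit false

open CategoryTheory NumberField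
open scoped Pointwise
open Fermat.Agent.S55.H49

noncomputable section

namespace Fermat.Agent.S55.H11

local notation "Qb" => AlgebraicClosure ℚ
local notation "GQ" => (AlgebraicClosure ℚ ≃ₐ[ℚ] AlgebraicClosure ℚ)
local notation "𝓑" => integralClosure ℤ (AlgebraicClosure ℚ)

attribute [local instance] Fermat.Agent.S55.H88.factOfPrimes

variable {S : Finset Nat.Primes}

/-! ### The Frobenius at a valuation subring -/

section FrobX

variable (F : IntermediateField ℚ Qb) [FiniteDimensional ℚ F]

/-- THE `F`-Frobenius at `x` (chosen by `H56.exists_frobenius`). -/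
def frobX (x : XS S) : GQ :=
  Classical.choose (H56.exists_frobenius F x.prime.2 x.liesOver)

theorem frobX_spec (x : XS S) :
    frobX F x ∈ x.1.decompositionSubgroup ℚ ∧ frobX F x ∈ F.fixingSubgroup ∧
      0 < Nat.card (𝓞 F ⧸ H56.centerInt F x.1) ∧
      (∀ b : 𝓑, frobX F x • b - b ^ Nat.card (𝓞 F ⧸ H56.centerInt F x.1) ∈
        Fermat.Agent.S54.H94.primeB x.1) ∧
      ∀ K : IntermediateField ℚ Qb, FiniteDimensional ℚ K → F ≤ K →
        (∀ g ∈ F.fixingSubgroup, ∀ y ∈ K, g y ∈ K) →
        x.1.inertiaSubgroupIn ℚ ≤ K.fixingSubgroup →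
        ∀ d : GQ, d ∈ x.1.decompositionSubgroup ℚ → d ∈ F.fixingSubgroup →
          ∃ k : ℕ, (frobX F x ^ k)⁻¹ * d ∈ K.fixingSubgroup :=
  Classical.choose_spec (H56.exists_frobenius F x.prime.2 x.liesOver)

theorem frobX_mem (x : XS S) : frobX F x ∈ F.fixingSubgroup := (frobX_spec F x).2.1

/-- The Frobenius congruence. -/
theorem frobX_congr (x : XS S) (b : 𝓑) :
    frobX F x • b - b ^ Nat.card (𝓞 F ⧸ H56.centerInt F x.1) ∈
      Fermat.Agent.S54.H94.primeB x.1 :=
  (frobX_spec F x).2.2.2.1 b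

theorem frobX_card_pos (x : XS S) : 0 < Nat.card (𝓞 F ⧸ H56.centerInt F x.1) :=
  (frobX_spec F x).2.2.1

theorem isDecGen_frobX (x : XS S) : IsDecGen F x (frobX F x) :=
  ⟨(frobX_spec F x).1, (frobX_spec F x).2.1, (frobX_spec F x).2.2.2.2⟩

end FrobX

/-! ### The invariants at the finite places of `F` -/

section LamV

variable (F : IntermediateField ℚ Qb) [NumberField F] (hF : F.IsUnramifiedOutside S)

/-- The places of `F` outside `S`. -/
abbrev PlOut (S : Finset Nat.Primes) (F : IntermediateField ℚ Qb) [NumberField F] : Type :=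
  {w : H88.FinPlace ↥F // w ∉ H88.sPlaces ↥F S}

/-- The valuation subring of `ℚ̄` attached to a finite place of `F` outside `S`. -/
def repS (v : PlOut S F) : XS S :=
  repV F (H88.sPlaces ↥F S) (fun _ => H88.mem_sPlaces_iff) v

theorem coe_repS (v : PlOut S F) : (repS F v).1 = ballV F v.1 := rfl

theorem prime_repS (v : PlOut S F) : (repS F v).prime = v.1.1 :=
  prime_repV F (H88.sPlaces ↥F S) (fun _ => H88.mem_sPlaces_iff) v

theorem repS_unique (x : XS S) :
    ∃! v : PlOut S F, ∃ g : ↥F.fixingSubgroup, g • repS F v = x :=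
  repV_unique F (H88.sPlaces ↥F S) (fun _ => H88.mem_sPlaces_iff) x

/-- The Frobenius at a finite place of `F` outside `S`. -/
def frobS (v : PlOut S F) : GQ := frobX F (repS F v)

theorem isDecGen_frobS (v : PlOut S F) : IsDecGen F (repS F v) (frobS F v) :=
  isDecGen_frobX F (repS F v)

/-- The Frobenius at `v`, as an element of `Gal(ℚ̄/F)`. -/
def frobSG (v : PlOut S F) : ↥F.fixingSubgroup :=
  frobG F (repS F) (frobS F) (isDecGen_frobS F) v

theorem coe_frobSG (v : PlOut S F) : (frobSG F v : GQ) = frobX F (repS F v) := rfl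

/-- **The invariants `lam v`** of `H²_lc(G_S(F), P_S)` at the finite places of `F`: the unramified
invariant for the Frobenius at `v ∉ S` composed with `pp`, and `0` at the places above `S`. -/
def lamV (pp : H66.QZ →+ H66.QZ) (w : H88.FinPlace ↥F) : H70.HP S F 2 →+ H66.QZ :=
  pp.comp (lamFExt F hF (H88.sPlaces ↥F S) (repS F) (repS_unique F) (frobS F)
    (isDecGen_frobS F) w)

theorem lamV_apply (pp : H66.QZ →+ H66.QZ) (w : H88.FinPlace ↥F) (c : H70.HP S F 2) :
    lamV F hF pp w c = pp (lamFExt F hF (H88.sPlaces ↥F S) (repS F) (repS_unique F) (frobS F)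
      (isDecGen_frobS F) w c) := rfl

theorem lamV_of_not_mem (pp : H66.QZ →+ H66.QZ) (v : PlOut S F) (c : H70.HP S F 2) :
    lamV F hF pp v.1 c =
      pp (lamF F hF (repS F) (repS_unique F) (frobS F) (isDecGen_frobS F) v c) := by
  rw [lamV_apply, lamFExt_of_not_mem F hF (H88.sPlaces ↥F S) (repS F) (repS_unique F) (frobS F)
    (isDecGen_frobS F) v.2]

/-- **Leaf (HLAM)**: the unramified invariant formula for `lamV` (the last conjunct of
`H70.LamStatement`, verbatim). -/
def HlamLeaf (S : Finset Nat.Primes) (pp : H66.QZ →+ H66.QZ) (F : IntermediateField ℚ Qb)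
    [NumberField F] (hF : F.IsUnramifiedOutside S) : Prop :=
  ∀ v : H88.FinPlace ↥F, v.1 ∉ S → ∀ (L : H74.QSLayer S F)
    (a : groupCohomology (Rep.ofAlgebraAutOnUnits ↥F ↥L.K) 2),
    lamV F hF pp v (H70.gsPi2 F (H74.inflK S F L.K L.unr 2 a)) =
      pp ((H88.layerOf ↥F ↥L.K).linv v a)

end LamV

/-- **(A3) from (HLAM)**: `H70.LamStatement p S pp` holds as soon as the unramified invariant
formula holds for `lamV`; (Pa), (Pb), (Pb-fin) are proved. -/
theorem lamStatement_of_hlam {p : ℕ} [Fact p.Prime] (hpS : ExtCitation.pPrime p ∈ S)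
    (pp : H66.QZ →+ H66.QZ) (hpp : ∀ t : H66.QZ, H70.IsPPrimary p t → pp t = t)
    (h : ∀ (F : IntermediateField ℚ Qb) [NumberField F] (hF : F.IsUnramifiedOutside S),
      (∀ ζ : Qb, ζ ^ p = 1 → ζ ∈ F) → HlamLeaf S pp F hF) :
    H70.LamStatement p S pp := by
  intro F hF hμ
  haveI := H70.numberField_of_unr hF
  refine ⟨lamV F hF pp, ?_, ?_, ?_, ?_⟩
  · exact fun c hc => ps_pa hpS F hF c hc
  · intro c hc hv
    refine lamFExt_pb F hF (H88.sPlaces ↥F S) (repS F) (repS_unique F) (frobS F)
      (isDecGen_frobS F) hpS pp hpp c hc fun w hw => ?_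
    exact hv w fun hwS => hw (H88.mem_sPlaces_iff.2 hwS)
  · exact fun c => lamFExt_pbfin F hF (H88.sPlaces ↥F S) (repS F) (repS_unique F) (frobS F)
      (isDecGen_frobS F) pp c
  · exact fun v hv L a => h F hF hμ v hv L a

end Fermat.Agent.S55.H11
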