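/-
Program C (S55), package C9b, leaf (A3) `hlam` (helper11): THE `G_S`-SIDE OF THE UNRAMIFIED
INVARIANT FORMULA.

For a finite place `v` of `F` outside `S`, a layer `L` of `F` inside `ℚ_S`, a `2`-cocycle `z` of
`Gal(L.K/F)` with values in `L.Kˣ`, `ψ` the restriction to `L.K` of the Frobenius at `v`, and
`n > 0` with `ψ ^ n = 1`:

  `lamV v (π (infl [z])) = pp ((1/n) ∑_{k<n} ord_v z(ψ^k, ψ))`     (`lamV_inflK_H2π`),

and `∏_{k<n} ‖j_v (z(ψ^k, ψ))‖ = (1/q) ^ (∑_{k<n} ord_v z(ψ^k, ψ))`  (`prod_norm_placeExt`), the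
input format of `H56.linvAt_H2π_eq_of_unram`.
-/
import Mathlib
import Fermat.Agent.S55.H11.LamV
import Fermat.Agent.S55.H74.InflCoc
import Fermat.Agent.S55.H56.HlamGlobal

set_option autoImplicit false

open CategoryTheory NumberField
open scoped Pointwise
open Fermat.Agent.S55.H49

noncomputable section

namespace Fermat.Agent.S55.H11

local notation "Qb" => AlgebraicClosure ℚ
local notation "GQ" => (AlgebraicClosure ℚ ≃ₐ[ℚ] AlgebraicClosure ℚ)

attribute [local instance] Fermat.Agent.S55.H88.factOfPrimes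

/-- A sum of a periodic function over a multiple of the period. -/
theorem sum_range_mul_of_periodic {M : Type*} [AddCommMonoid M] (f : ℕ → M) (n : ℕ)
    (hf : ∀ k, f (k + n) = f k) (m : ℕ) :
    ∑ k ∈ Finset.range (n * m), f k = m • ∑ k ∈ Finset.range n, f k := by
  have hf' : ∀ j k, f (n * j + k) = f k := by
    intro j
    induction j with
    | zero => intro k; rw [Nat.mul_zero, Nat.zero_add]
    | succ j ih =>
      intro k
      have e : n * (j + 1) + k = (n * j + k) + n := by ring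
      rw [e, hf, ih]
  induction m with
  | zero => simp
  | succ m ih =>
    rw [Nat.mul_succ, Finset.sum_range_add, ih, succ_nsmul]
    congr 1
    exact Finset.sum_congr rfl fun k _ => hf' m k

variable {S : Finset Nat.Primes} (F : IntermediateField ℚ Qb) [NumberField F]
  (hF : F.IsUnramifiedOutside S)

/-- The restriction to the layer `L` of the Frobenius at `v`. -/
def frobL (v : PlOut S F) (L : H74.QSLayer S F) : ↥L.K ≃ₐ[↥F] ↥L.K :=
  H74.galRes F L.K (frobSG F v)

theorem frobL_apply (v : PlOut S F) (L : H74.QSLayer S F) (x : ↥L.K) :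
    ((frobL F v L x : ↥L.K) : Qb) = frobX F (repS F v) (x : Qb) :=
  H74.galRes_apply F L.K (frobSG F v) x

/-- The order at `v` of a unit of the layer `L`. -/
def ordL (v : PlOut S F) (L : H74.QSLayer S F) (u : Rep.ofAlgebraAutOnUnits ↥F ↥L.K) : ℤ :=
  ordG F ((H74.unitsToQS S F L.K L.unr).hom u) (repS F v)

/-- **The `G_S`-side of (hlam)**: the invariant `lamV v` of the image in `H²(G_S(F), P_S)` of the
inflation of the class of a `2`-cocycle `z` of a layer. -/
theorem lamV_inflK_H2π (pp : H66.QZ →+ H66.QZ) (v : PlOut S F) (L : H74.QSLayer S F)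
    (z : groupCohomology.cocycles₂ (Rep.ofAlgebraAutOnUnits ↥F ↥L.K)) {n : ℕ} (hn : 0 < n)
    (hψ : frobL F v L ^ n = 1) :
    lamV F hF pp v.1 (H70.gsPi2 F (H74.inflK S F L.K L.unr 2
        ((groupCohomology.H2π (Rep.ofAlgebraAutOnUnits ↥F ↥L.K)).hom z))) =
      pp ((((∑ k ∈ Finset.range n, ordL F v L (z.1 (frobL F v L ^ k, frobL F v L)) : ℤ) : ℚ)
        / (n : ℚ) : ℚ) : AddCircle (1 : ℚ)) := by
  obtain ⟨N, hN, hKN, hNn, -⟩ := H43.exists_normal_level L.unr
  have hc := H74.isLCAt_inflCyc₂ S F L.K L.unr z N hKN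
  obtain ⟨m, hm, hfm⟩ := exists_pow_mem_sub (D := H42.fieldDatum S F)
    (H42.fieldDatum_finiteIndex S F) hN (frobSG F v)
  have hfn : frobG F (repS F) (frobS F) (isDecGen_frobS F) v ^ (n * m) ∈
      (H42.fieldDatum S F).sub N := by
    rw [mul_comm, pow_mul]
    exact Subgroup.pow_mem _ hfm n
  have h1 : H74.inflK S F L.K L.unr 2
      ((groupCohomology.H2π (Rep.ofAlgebraAutOnUnits ↥F ↥L.K)).hom z) =
      (cls (lcComplex (H42.fieldDatum S F) (H42.resF F (H42.QSx S))) 2).hom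
        (H74.inflCyc₂ S F L.K L.unr z) := H74.inflK_H2π_eq_cls S F L.K L.unr z
  rw [lamV_of_not_mem, h1,
    lamF_gsPi2 F hF (repS F) (repS_unique F) (frobS F) (isDecGen_frobS F) v _ hN hNn hc
      (Nat.mul_pos hn hm) hfn]
  congr 1
  -- the values of the inflated cocycle
  have hval : ∀ k : ℕ, ordG F (lcVal (H74.inflCyc₂ S F L.K L.unr z)
      ![frobG F (repS F) (frobS F) (isDecGen_frobS F) v ^ k,
        frobG F (repS F) (frobS F) (isDecGen_frobS F) v]) (repS F v) =
      ordL F v L (z.1 (frobL F v L ^ k, frobL F v L)) := by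
    intro k
    have e : H74.galRes F L.K (frobG F (repS F) (frobS F) (isDecGen_frobS F) v ^ k) =
        frobL F v L ^ k := map_pow _ _ _
    have e2 : lcVal (H74.inflCyc₂ S F L.K L.unr z)
        ![frobG F (repS F) (frobS F) (isDecGen_frobS F) v ^ k,
          frobG F (repS F) (frobS F) (isDecGen_frobS F) v] =
        (H74.unitsToQS S F L.K L.unr).hom (z.1
          (H74.galRes F L.K (frobG F (repS F) (frobS F) (isDecGen_frobS F) v ^ k),
            frobL F v L)) := rfl
    rw [e2, e]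
    rfl
  have hper : ∀ k : ℕ, ordL F v L (z.1 (frobL F v L ^ (k + n), frobL F v L)) =
      ordL F v L (z.1 (frobL F v L ^ k, frobL F v L)) := by
    intro k
    rw [pow_add, hψ, mul_one]
  have hsum : (∑ k ∈ Finset.range (n * m), ordG F (lcVal (H74.inflCyc₂ S F L.K L.unr z)
      ![frobG F (repS F) (frobS F) (isDecGen_frobS F) v ^ k,
        frobG F (repS F) (frobS F) (isDecGen_frobS F) v]) (repS F v)) =
      m • ∑ k ∈ Finset.range n, ordL F v L (z.1 (frobL F v L ^ k, frobL F v L)) := by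
    rw [Finset.sum_congr rfl fun k _ => hval k]
    exact sum_range_mul_of_periodic _ n hper m
  rw [hsum]
  congr 1
  have hn0 : (n : ℚ) ≠ 0 := by exact_mod_cast hn.ne'
  have hm0 : (m : ℚ) ≠ 0 := by exact_mod_cast hm.ne'
  have key : ∀ s : ℤ, ((m • s : ℤ) : ℚ) / ((n * m : ℕ) : ℚ) = (s : ℚ) / (n : ℚ) := by
    intro s
    rw [nsmul_eq_mul]
    push_cast
    field_simp
  exact key _

/-- The norms of the values of a cocycle at the place `v`, in terms of the orders. -/
theorem norm_placeExt_unit (v : PlOut S F) (L : H74.QSLayer S F)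
    (u : Rep.ofAlgebraAutOnUnits ↥F ↥L.K) :
    ‖placeExt F v.1 (((H56.gUnit ↥F u : (↥L.K)ˣ) : ↥L.K) : Qb)‖ =
      (((v.1.1 : ℕ) : ℝ)⁻¹) ^ ordL F v L u :=
  norm_placeExt_eq F (H88.sPlaces ↥F S) (fun _ => H88.mem_sPlaces_iff) v
    ((H74.unitsToQS S F L.K L.unr).hom u)

theorem prod_norm_placeExt (v : PlOut S F) (L : H74.QSLayer S F)
    (f : ℕ → Rep.ofAlgebraAutOnUnits ↥F ↥L.K) (n : ℕ) :
    ∏ k ∈ Finset.range n, ‖placeExt F v.1 (((H56.gUnit ↥F (f k) : (↥L.K)ˣ) : ↥L.K) : Qb)‖ =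
      (((v.1.1 : ℕ) : ℝ)⁻¹) ^ (∑ k ∈ Finset.range n, ordL F v L (f k)) := by
  have hq : (((v.1.1 : ℕ) : ℝ)⁻¹) ≠ 0 :=
    inv_ne_zero (Nat.cast_ne_zero.mpr v.1.1.2.ne_zero)
  induction n with
  | zero => simp
  | succ n ih =>
    rw [Finset.prod_range_succ, Finset.sum_range_succ, zpow_add₀ hq, ih, norm_placeExt_unit]

end Fermat.Agent.S55.H11
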