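/-
Program C (S55), package C9b, leaf (A3) `hlam` (helper11): THE UNRAMIFIED INVARIANT FORMULA
`HlamLeaf` FROM THE FROBENIUS COMPARISON.

`FrobCmp S F` ((HL-d) of helper56's plan): for a finite place `v` of `F` outside `S`, a layer `L`
of `F` inside `ℚ_S` and `τ = j_v|L.K` (`tauL`), the image in `Gal(L.K/F)` of the Frobenius of the
(unramified) local extension `(L.K)_w / F_v` is the restriction of the global Frobenius
`frobX F (repS F v)`.

`hlamLeaf_of_frobCmp : FrobCmp S F → HlamLeaf S pp F hF`, hence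
`lamStatement_of_frobCmp : (∀ F, FrobCmp S F) → H70.LamStatement p S pp`.

Inputs: `lamV_inflK_H2π`, `prod_norm_placeExt` (the `G_S`-side), `H56.linvAt_H2π_eq_of_unram`
(local side), `H20.linvIndep` (independence of the place of `L.K` above `v`),
`H20.isUnramifiedAt_of_unramifiedOutside` + `H28.isUnram_locExt`, `H20.unifNrm_locBase_eq`.
-/
import Mathlib
import Fermat.Agent.S55.H11.HlamGS
import Fermat.Agent.S55.H20.LinvIndep
import Fermat.Agent.S55.H20.UnifNrm
import Fermat.Agent.S55.H20.UnrBridgeType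
import Fermat.Agent.S55.H28.LinvFin

set_option autoImplicit false

open CategoryTheory NumberField
open scoped Pointwise
open Fermat.Agent.S55.H49

noncomputable section

namespace Fermat.Agent.S55.H11

local notation "Qb" => AlgebraicClosure ℚ
local notation "GQ" => (AlgebraicClosure ℚ ≃ₐ[ℚ] AlgebraicClosure ℚ)

attribute [local instance] Fermat.Agent.S55.H88.factOfPrimes

variable {S : Finset Nat.Primes} (F : IntermediateField ℚ Qb) [NumberField F]
  (hF : F.IsUnramifiedOutside S)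

/-- The embedding of the layer `L.K` into `PadicAlgCl q` induced by the chosen extension `j_v` of
the place `v` to `ℚ̄`. -/
def tauL (v : H88.FinPlace ↥F) (L : H74.QSLayer S F) : ↥L.K →+* PadicAlgCl (v.1 : ℕ) :=
  (placeExt F v).comp (algebraMap ↥L.K Qb)

theorem tauL_apply (v : H88.FinPlace ↥F) (L : H74.QSLayer S F) (x : ↥L.K) :
    tauL F v L x = placeExt F v (x : Qb) := rfl

theorem tauL_comp (v : H88.FinPlace ↥F) (L : H74.QSLayer S F) :
    (tauL F v L).comp (algebraMap ↥F ↥L.K) = v.emb := by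
  refine RingHom.ext fun x => ?_
  exact placeExt_apply F v x

/-- The local invariant at `v` of the layer `L` is the one computed at `tauL`. -/
theorem linv_eq_linvAt_tauL (v : H88.FinPlace ↥F) (L : H74.QSLayer S F) :
    (H88.layerOf ↥F ↥L.K).linv v = H88.linvAt (v.1 : ℕ) ↥F (tauL F v L) := by
  refine H20.linvIndep ↥F ↥L.K (v.1 : ℕ) (v.ext ↥L.K) (tauL F v L) ⟨1, ?_⟩
  rw [H88.FinPlace.ext_comp, tauL_comp]
  rfl

/-- **(HL-d) FROB-CMP**, the input of the final glue: at a place `v` outside `S` and a layer `L`,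
some Frobenius of the local extension at `tauL` maps to the restriction of the global Frobenius
at `v`. -/
def FrobCmp (S : Finset Nat.Primes) (F : IntermediateField ℚ Qb) [NumberField F] : Prop :=
  ∀ (v : PlOut S F) (L : H74.QSLayer S F),
    ∃ φ : H88.locExt (v.1.1 : ℕ) ↥F (tauL F v.1 L) ≃ₐ[H88.locBase (v.1.1 : ℕ) ↥F (tauL F v.1 L)]
        H88.locExt (v.1.1 : ℕ) ↥F (tauL F v.1 L),
      H66.IsFrob (v.1.1 : ℕ) (H88.locExt (v.1.1 : ℕ) ↥F (tauL F v.1 L)) φ ∧
      H88.locGalToGlobal (v.1.1 : ℕ) ↥F (tauL F v.1 L) φ = frobL F v L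

/-- The local extension at a place outside `S` is unramified. -/
theorem isUnram_tauL (v : H88.FinPlace ↥F) (hv : v.1 ∉ S) (L : H74.QSLayer S F) :
    H66.IsUnram (v.1 : ℕ) (H88.locBase (v.1 : ℕ) ↥F (tauL F v L))
      (H88.locExt (v.1 : ℕ) ↥F (tauL F v L)) :=
  H28.isUnram_locExt (v.1 : ℕ) ↥F (tauL F v L)
    (H20.isUnramifiedAt_of_unramifiedOutside L.unr v.1 hv ↥F ↥L.K fun x => x.2)

theorem finiteDimensional_locBase_tauL (v : H88.FinPlace ↥F) (L : H74.QSLayer S F) :
    FiniteDimensional ℚ_[(v.1 : ℕ)] (H88.locBase (v.1 : ℕ) ↥F (tauL F v L)) :=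
  H88.locFieldFiniteStatement_holds (v.1 : ℕ) ↥F _

/-- **(HLAM) from (FROB-CMP)**. -/
theorem hlamLeaf_of_frobCmp (pp : H66.QZ →+ H66.QZ) (hcmp : FrobCmp S F) :
    HlamLeaf S pp F hF := by
  intro v hv L a
  obtain ⟨z, rfl⟩ := (ModuleCat.epi_iff_surjective
    (groupCohomology.H2π (Rep.ofAlgebraAutOnUnits ↥F ↥L.K))).1 inferInstance a
  let v' : PlOut S F := ⟨v, fun h => hv (H88.mem_sPlaces_iff.1 h)⟩
  obtain ⟨φ, hφ, hφψ⟩ := hcmp v' L
  haveI := finiteDimensional_locBase_tauL F v L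
  have hL := isUnram_tauL F v hv L
  obtain ⟨-, hord⟩ := H56.frob_generates (v.1 : ℕ) (H88.locBase (v.1 : ℕ) ↥F (tauL F v L))
    (H88.locExt (v.1 : ℕ) ↥F (tauL F v L)) hL φ hφ
  have hn0 : 0 < Module.finrank (H88.locBase (v.1 : ℕ) ↥F (tauL F v L))
      (H88.locExt (v.1 : ℕ) ↥F (tauL F v L)) := Module.finrank_pos
  have hψn : frobL F v' L ^ Module.finrank (H88.locBase (v.1 : ℕ) ↥F (tauL F v L))
      (H88.locExt (v.1 : ℕ) ↥F (tauL F v L)) = 1 := by
    rw [← hφψ, ← map_pow, ← hord, pow_orderOf_eq_one, map_one]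
  rw [linv_eq_linvAt_tauL]
  refine (lamV_inflK_H2π F hF pp v' L z hn0 hψn).trans (congrArg pp ?_)
  symm
  refine H56.linvAt_H2π_eq_of_unram (v.1 : ℕ) ↥F (tauL F v L) hL φ hφ z _ ?_
  rw [hφψ, H20.unifNrm_locBase_eq S F hF v.1 hv ↥L.K (tauL F v L)]
  exact prod_norm_placeExt F v' L (fun k => z.1 (frobL F v' L ^ k, frobL F v' L)) _

/-- **(A3) from (FROB-CMP)**: `H70.LamStatement p S pp`. -/
theorem lamStatement_of_frobCmp {p : ℕ} [Fact p.Prime] (hpS : ExtCitation.pPrime p ∈ S)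
    (pp : H66.QZ →+ H66.QZ) (hpp : ∀ t : H66.QZ, H70.IsPPrimary p t → pp t = t)
    (h : ∀ (F : IntermediateField ℚ Qb) [NumberField F], F.IsUnramifiedOutside S →
      FrobCmp S F) :
    H70.LamStatement p S pp :=
  lamStatement_of_hlam hpS pp hpp fun F _ hF _ => hlamLeaf_of_frobCmp F hF pp (h F hF)

end Fermat.Agent.S55.H11
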