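/-
Program C (S55), package C9b, leaf (A3) (helper11): `H70.LamStatement p S pp`, UNCONDITIONAL
(for `p ∈ S` and `pp` the identity on `p`-primary elements).

`frobCmp : FrobCmp S F` from helper56's `H56.exists_locFrob_placeExt` ((HL-d) FROB-CMP), then
`hlamLeaf : HlamLeaf S pp F hF` and `lamStatement : H70.LamStatement p S pp` by `HlamFinal.lean`.
-/
import Mathlib
import Fermat.Agent.S55.H11.HlamFinal
import Fermat.Agent.S55.H56.FrobC

set_option autoImplicit false

open CategoryTheory NumberField
open scoped Pointwise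

noncomputable section

namespace Fermat.Agent.S55.H11

local notation "Qb" => AlgebraicClosure ℚ

attribute [local instance] Fermat.Agent.S55.H88.factOfPrimes

variable {S : Finset Nat.Primes}

/-- **(HL-d) FROB-CMP** in the shape consumed by `hlamLeaf_of_frobCmp`. -/
theorem frobCmp (F : IntermediateField ℚ Qb) [NumberField F] : FrobCmp S F := by
  intro v L
  have hv : v.1.1 ∉ S := fun h => v.2 (H88.mem_sPlaces_iff.2 h)
  obtain ⟨φ, hφ, -, h⟩ := H56.exists_locFrob_placeExt F v.1 hv L
  exact ⟨φ, hφ, (h (frobX F (repS F v)) (frobX_mem F (repS F v))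
    (frobX_congr F (repS F v))).symm⟩

/-- **(HLAM)**: the unramified invariant formula for `lamV`. -/
theorem hlamLeaf (pp : H66.QZ →+ H66.QZ) (F : IntermediateField ℚ Qb) [NumberField F]
    (hF : F.IsUnramifiedOutside S) : HlamLeaf S pp F hF :=
  hlamLeaf_of_frobCmp F hF pp (frobCmp F)

/-- **(A3) = (L2-P) + (HLAM)**: `H70.LamStatement p S pp` for `p ∈ S` and every `pp` which is
the identity on `p`-primary elements. -/
theorem lamStatement {p : ℕ} [Fact p.Prime] (hpS : ExtCitation.pPrime p ∈ S)
    (pp : H66.QZ →+ H66.QZ) (hpp : ∀ t : H66.QZ, H70.IsPPrimary p t → pp t = t) :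
    H70.LamStatement p S pp :=
  lamStatement_of_frobCmp hpS pp hpp fun F _ _ => frobCmp F

end Fermat.Agent.S55.H11
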