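/-
Program C (S55), package C9b, leaf block L2-P (helper11): the model-independent core.

Integer-valued "divisor" functions on a `G`-set `X`, with `G` acting by `(σ f)(x) = f (σ⁻¹ x)`:

* `sh1_core` : a 1-cocycle `b : G → X → ℤ` which is right-invariant under a subgroup `U` such that
               every element of `G` has a positive power in `U` is a coboundary `σ e - e`
               (Shapiro in degree 1 + `Hom(finite, ℤ) = 0`).
* `cyc_core` : a 2-cocycle with trivial coefficients `ℤ` on a group `H` which is inflated from a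
               finite cyclic quotient `H/N = ⟨φ⟩` of order `n`, and whose "cyclic invariant"
               `∑_{k<n} a(φ^k, φ)` is divisible by `n`, is a coboundary.
* `sh2_core` : a 2-cocycle `c : G → G → X → ℤ`, level-constant for a normal subgroup `U`, such that
               at every orbit representative the cyclic invariant of the restriction to the
               stabiliser is divisible by the order of the "Frobenius" modulo `U`, is a coboundary
               of a level-constant 1-cochain (explicit Shapiro homotopy in degree 2).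
-/
import Mathlib

set_option autoImplicit false

namespace Fermat.Agent.S55.H11

section Core

variable {G : Type*} [Group G] {X : Type*} [MulAction G X]

/-- The differential of a divisor function: `(σ e - e)(x) = e (σ⁻¹ x) - e x`. -/
def dv0 (e : X → ℤ) (σ : G) (x : X) : ℤ := e (σ⁻¹ • x) - e x

/-- The differential of a 1-cochain of divisor functions. -/
def dv1 (b : G → X → ℤ) (σ τ : G) (x : X) : ℤ := b τ (σ⁻¹ • x) - b (σ * τ) x + b σ x

theorem dv1_dv0 (e : X → ℤ) (σ τ : G) (x : X) : dv1 (dv0 e) σ τ x = 0 := by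
  simp only [dv1, dv0, mul_inv_rev, mul_smul]
  ring

/-- The exact order of `g` modulo a subgroup containing a positive power of `g`. -/
theorem exists_ord (U : Subgroup G) (g : G) (h : ∃ n : ℕ, 0 < n ∧ g ^ n ∈ U) :
    ∃ n : ℕ, 0 < n ∧ ∀ i : ℕ, g ^ i ∈ U ↔ n ∣ i := by
  classical
  have hn := Nat.find_spec h
  refine ⟨Nat.find h, hn.1, fun i => ⟨fun hi => ?_, ?_⟩⟩
  · by_contra hnd
    have hr : 0 < i % Nat.find h :=
      Nat.pos_of_ne_zero fun h0 => hnd (Nat.dvd_of_mod_eq_zero h0)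
    have hlt : i % Nat.find h < Nat.find h := Nat.mod_lt _ hn.1
    have hmem : g ^ (i % Nat.find h) ∈ U := by
      have e : g ^ i = g ^ (i % Nat.find h) * (g ^ Nat.find h) ^ (i / Nat.find h) := by
        rw [← pow_mul, ← pow_add, Nat.mod_add_div]
      have e' : g ^ (i % Nat.find h) = g ^ i * ((g ^ Nat.find h) ^ (i / Nat.find h))⁻¹ := by
        rw [e, mul_inv_cancel_right]
      rw [e']
      exact U.mul_mem hi (U.inv_mem (U.pow_mem hn.2 _))
    exact Nat.find_min h hlt ⟨hr, hmem⟩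
  · rintro ⟨q, rfl⟩
    rw [pow_mul]
    exact U.pow_mem hn.2 q

/-- **Shapiro in degree 1** for divisor functions. -/
theorem sh1_core (U : Subgroup G) (hU : ∀ g : G, ∃ n : ℕ, 0 < n ∧ g ^ n ∈ U)
    {V : Type*} (rep : V → X) (hrep : ∀ x, ∃! v, ∃ g : G, g • rep v = x)
    (b : G → X → ℤ) (hb : ∀ σ τ x, dv1 b σ τ x = 0)
    (hr : ∀ σ, ∀ u ∈ U, b (σ * u) = b σ) :
    ∃ e : X → ℤ, (∀ u ∈ U, ∀ x, e (u • x) = e x) ∧ (∀ σ x, b σ x = dv0 e σ x) ∧
      ∀ x, e x ≠ 0 → ∃ σ : G, ∃ g : G, b σ (g • x) ≠ 0 := by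
  classical
  have hb' : ∀ σ τ x, b (σ * τ) x = b τ (σ⁻¹ • x) + b σ x := by
    intro σ τ x
    have := hb σ τ x
    unfold dv1 at this
    linarith
  have b1 : ∀ x, b 1 x = 0 := by
    intro x
    have := hb' 1 1 x
    simp only [mul_one, inv_one, one_smul] at this
    linarith
  -- the restriction to a stabiliser vanishes
  have hstab : ∀ (x : X) (h : G), h • x = x → b h x = 0 := by
    intro x h hx
    have hpow : ∀ n : ℕ, h ^ n • x = x := by
      intro n
      induction n with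
      | zero => simp
      | succ n ih => rw [pow_succ, mul_smul, hx, ih]
    have hmul : ∀ n : ℕ, b (h ^ n) x = n * b h x := by
      intro n
      induction n with
      | zero => simp [b1]
      | succ n ih =>
          have hinv : (h ^ n)⁻¹ • x = x := by
            rw [inv_smul_eq_iff, hpow]
          rw [pow_succ, hb', hinv, ih]
          push_cast
          ring
    obtain ⟨n, hn, hmem⟩ := hU h
    have h0 : b (h ^ n) x = 0 := by
      have := hr 1 (h ^ n) hmem
      rw [one_mul] at this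
      rw [this, b1]
    rw [hmul] at h0
    have hn' : (n : ℤ) ≠ 0 := by exact_mod_cast hn.ne'
    exact (mul_eq_zero.mp h0).resolve_left hn'
  choose vOf hvOf hvuniq using fun x => (hrep x)
  choose t ht using hvOf
  refine ⟨fun x => b (t x)⁻¹ (rep (vOf x)), ?_, ?_, ?_⟩
  -- independence of the choice
  all_goals
    have hind : ∀ (x : X) (v : V) (g : G), g • rep v = x →
        b (t x)⁻¹ (rep (vOf x)) = b g⁻¹ (rep v) := by
      intro x v g hg
      have hv : v = vOf x := hvuniq x v ⟨g, hg⟩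
      subst hv
      have hfix : ((t x)⁻¹ * g) • rep (vOf x) = rep (vOf x) := by
        rw [mul_smul, hg, inv_smul_eq_iff, ht]
      have hfix' : ((t x)⁻¹ * g)⁻¹ • rep (vOf x) = rep (vOf x) := by
        rw [inv_smul_eq_iff, hfix]
      have e : g⁻¹ = ((t x)⁻¹ * g)⁻¹ * (t x)⁻¹ := by group
      rw [e, hb', inv_inv, hfix, hstab _ _ hfix', add_zero]
  · intro u hu x
    have h1 := hind (u • x) (vOf x) (u * t x) (by rw [mul_smul, ht])
    show b (t (u • x))⁻¹ (rep (vOf (u • x))) = b (t x)⁻¹ (rep (vOf x))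
    rw [h1, mul_inv_rev]
    exact congrFun (hr _ _ (U.inv_mem hu)) _
  · intro σ x
    have h1 := hind (σ⁻¹ • x) (vOf x) (σ⁻¹ * t x) (by rw [mul_smul, ht])
    show b σ x = b (t (σ⁻¹ • x))⁻¹ (rep (vOf (σ⁻¹ • x))) - b (t x)⁻¹ (rep (vOf x))
    rw [h1, mul_inv_rev, inv_inv, hb', inv_inv, ht]
    ring
  · intro x hx
    refine ⟨(t x)⁻¹, (t x)⁻¹, ?_⟩
    have : (t x)⁻¹ • x = rep (vOf x) := by rw [inv_smul_eq_iff, ht]
    rw [this]
    exact hx

end Core

section Cyc

variable {H : Type*} [Group H]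

/-- **2-cocycles with trivial coefficients `ℤ` inflated from a finite cyclic quotient**: if the
cyclic invariant `∑_{k<n} a(φ^k, φ)` is divisible by the order `n` of the quotient, the cocycle is
a coboundary of a function inflated from the quotient. -/
theorem cyc_core (N : Subgroup H) [N.Normal] (φ : H) (n : ℕ)
    (hord : ∀ i : ℕ, φ ^ i ∈ N ↔ n ∣ i) (hgen : ∀ h : H, ∃ i : ℕ, (φ ^ i)⁻¹ * h ∈ N)
    (a : H → H → ℤ) (hcoc : ∀ x y z, a y z - a (x * y) z + a x (y * z) - a x y = 0)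
    (hr₁ : ∀ x y, ∀ u ∈ N, a (x * u) y = a x y) (hr₂ : ∀ x y, ∀ u ∈ N, a x (y * u) = a x y)
    (hsum : (n : ℤ) ∣ ∑ k ∈ Finset.range n, a (φ ^ k) φ) :
    ∃ β : H → ℤ, (∀ x, ∀ u ∈ N, β (x * u) = β x) ∧ ∀ x y, a x y = β y - β (x * y) + β x := by
  classical
  -- notation
  set γ : ℕ → ℤ := fun i => ∑ k ∈ Finset.range i, a (φ ^ k) φ with hγ
  have hγs : ∀ i, γ (i + 1) = γ i + a (φ ^ i) φ := fun i => Finset.sum_range_succ _ _
  have hγ0 : γ 0 = 0 := Finset.sum_range_zero _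
  have ha1 : ∀ x, a x 1 = a 1 1 := by
    intro x
    have := hcoc x 1 1
    simp only [mul_one] at this
    linarith
  -- the values on powers of `φ`
  have key : ∀ i J : ℕ, a (φ ^ i) (φ ^ J) = a 1 1 + γ (i + J) - γ i - γ J := by
    intro i J
    induction J with
    | zero => rw [pow_zero, ha1, add_zero, hγ0]; ring
    | succ J ih =>
        have h1 := hcoc (φ ^ i) (φ ^ J) φ
        rw [← pow_add, ← pow_succ] at h1
        rw [← add_assoc, hγs, hγs]
        linarith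
  obtain ⟨t, ht⟩ := hsum
  have hnN : φ ^ n ∈ N := (hord n).mpr dvd_rfl
  have hper : ∀ k, a (φ ^ (k + n)) φ = a (φ ^ k) φ := by
    intro k
    rw [pow_add]
    exact hr₁ _ _ _ hnN
  have hγn : ∀ i, γ (i + n) = γ i + γ n := by
    intro i
    induction i with
    | zero => rw [zero_add, hγ0, zero_add]
    | succ i ih =>
        have e : i + 1 + n = (i + n) + 1 := by ring
        rw [e, hγs, hγs, ih, hper]
        ring
  set β₀ : ℕ → ℤ := fun i => a 1 1 - γ i + i * t with hβ₀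
  have hβn : ∀ i, β₀ (i + n) = β₀ i := by
    intro i
    simp only [hβ₀]
    rw [hγn]
    have : γ n = n * t := ht
    rw [this]
    push_cast
    ring
  have hβq : ∀ i q, β₀ (i + n * q) = β₀ i := by
    intro i q
    induction q with
    | zero => simp
    | succ q ih =>
        have e : i + n * (q + 1) = (i + n * q) + n := by ring
        rw [e, hβn, ih]
  have hβmod : ∀ i j : ℕ, i ≤ j → n ∣ j - i → β₀ i = β₀ j := by
    rintro i j hij ⟨q, hq⟩
    have e : j = i + n * q := by omega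
    rw [e, hβq]
  choose idx hidx using hgen
  -- `β₀ i` only depends on the coset `φ^i N`
  have hwd : ∀ (h : H) (i : ℕ), (φ ^ i)⁻¹ * h ∈ N → β₀ (idx h) = β₀ i := by
    intro h i hi
    have h1 : (φ ^ i)⁻¹ * φ ^ idx h ∈ N := by
      have e : (φ ^ i)⁻¹ * φ ^ idx h = ((φ ^ i)⁻¹ * h) * ((φ ^ idx h)⁻¹ * h)⁻¹ := by group
      rw [e]
      exact N.mul_mem hi (N.inv_mem (hidx h))
    rcases le_total i (idx h) with hle | hle
    · have h2 : φ ^ (idx h - i) ∈ N := by
        have e : φ ^ (idx h - i) = (φ ^ i)⁻¹ * φ ^ idx h := by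
          rw [eq_inv_mul_iff_mul_eq, ← pow_add, Nat.add_sub_cancel' hle]
        rw [e]
        exact h1
      exact (hβmod i (idx h) hle ((hord _).mp h2)).symm
    · have h2 : φ ^ (i - idx h) ∈ N := by
        have e : φ ^ (i - idx h) = ((φ ^ i)⁻¹ * φ ^ idx h)⁻¹ := by
          rw [mul_inv_rev, inv_inv, eq_inv_mul_iff_mul_eq, ← pow_add, Nat.add_sub_cancel' hle]
        rw [e]
        exact N.inv_mem h1
      exact hβmod (idx h) i hle ((hord _).mp h2)
  refine ⟨fun h => β₀ (idx h), fun x u hu => ?_, fun x y => ?_⟩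
  · refine hwd (x * u) (idx x) ?_
    rw [← mul_assoc]
    exact N.mul_mem (hidx x) hu
  · -- reduce `x`, `y` to powers of `φ`
    have hx : a x y = a (φ ^ idx x) y := by
      have e : x = φ ^ idx x * ((φ ^ idx x)⁻¹ * x) := by group
      conv_lhs => rw [e]
      exact hr₁ _ _ _ (hidx x)
    have hy : a (φ ^ idx x) y = a (φ ^ idx x) (φ ^ idx y) := by
      have e : y = φ ^ idx y * ((φ ^ idx y)⁻¹ * y) := by group
      conv_lhs => rw [e]
      exact hr₂ _ _ _ (hidx y)
    have hxy : β₀ (idx (x * y)) = β₀ (idx x + idx y) := by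
      refine hwd (x * y) (idx x + idx y) ?_
      have e : (φ ^ (idx x + idx y))⁻¹ * (x * y)
          = ((φ ^ idx y)⁻¹ * ((φ ^ idx x)⁻¹ * x) * ((φ ^ idx y)⁻¹)⁻¹) * ((φ ^ idx y)⁻¹ * y) := by
        rw [pow_add, mul_inv_rev, inv_inv]
        simp only [mul_assoc, mul_inv_cancel_left]
      rw [e]
      exact N.mul_mem ((inferInstance : N.Normal).conj_mem _ (hidx x) _) (hidx y)
    show a x y = β₀ (idx y) - β₀ (idx (x * y)) + β₀ (idx x)
    rw [hx, hy, key, hxy]
    simp only [hβ₀]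
    push_cast
    ring

end Cyc

section SH2

variable {G : Type*} [Group G] {X : Type*} [MulAction G X]

/-- The primitive of the restriction of a 2-cocycle to the stabiliser of an orbit
representative. -/
theorem exists_stab_primitive (U : Subgroup G) [U.Normal]
    (hU : ∀ g : G, ∃ n : ℕ, 0 < n ∧ g ^ n ∈ U) (x₀ : X) (φ : G) (hφ : φ • x₀ = x₀)
    (hcyc : ∀ h : G, h • x₀ = x₀ → ∃ i : ℕ, (φ ^ i)⁻¹ * h ∈ U)
    (c : G → G → X → ℤ)
    (hc : ∀ ρ σ τ x, c σ τ (ρ⁻¹ • x) - c (ρ * σ) τ x + c ρ (σ * τ) x - c ρ σ x = 0)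
    (hr₁ : ∀ σ τ, ∀ u ∈ U, c (σ * u) τ = c σ τ) (hr₂ : ∀ σ τ, ∀ u ∈ U, c σ (τ * u) = c σ τ)
    (hsum : ∀ n : ℕ, 0 < n → (∀ i : ℕ, φ ^ i ∈ U ↔ n ∣ i) →
      (n : ℤ) ∣ ∑ k ∈ Finset.range n, c (φ ^ k) φ x₀) :
    ∃ β : G → ℤ,
      (∀ h h' : G, h • x₀ = x₀ → h' • x₀ = x₀ → h⁻¹ * h' ∈ U → β h = β h') ∧
      (∀ h₁ h₂ : G, h₁ • x₀ = x₀ → h₂ • x₀ = x₀ →
        c h₁ h₂ x₀ = β h₂ - β (h₁ * h₂) + β h₁) := by
  classical
  obtain ⟨n, hn, hord⟩ := exists_ord U φ (hU φ)
  have hφH : φ ∈ MulAction.stabilizer G x₀ := hφ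
  obtain ⟨β, hβ1, hβ2⟩ := cyc_core (H := MulAction.stabilizer G x₀)
    (U.subgroupOf (MulAction.stabilizer G x₀)) ⟨φ, hφH⟩ n
    (fun i => by
      rw [Subgroup.mem_subgroupOf]
      exact hord i)
    (fun h => by
      obtain ⟨i, hi⟩ := hcyc h h.2
      exact ⟨i, by rw [Subgroup.mem_subgroupOf]; exact hi⟩)
    (fun x y => c x y x₀)
    (fun x y z => by
      have h1 := hc (x : G) y z x₀
      have h2 : (x : G)⁻¹ • x₀ = x₀ := by
        rw [inv_smul_eq_iff]
        exact x.2.symm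
      rw [h2] at h1
      exact h1)
    (fun x y u hu => by
      have := hr₁ (x : G) y u (Subgroup.mem_subgroupOf.mp hu)
      exact congrFun this x₀)
    (fun x y u hu => by
      have := hr₂ (x : G) y u (Subgroup.mem_subgroupOf.mp hu)
      exact congrFun this x₀)
    (hsum n hn hord)
  refine ⟨fun g => if hg : g ∈ MulAction.stabilizer G x₀ then β ⟨g, hg⟩ else 0, ?_, ?_⟩
  · intro h h' hh hh' hu
    have hhs : h ∈ MulAction.stabilizer G x₀ := hh
    have hhs' : h' ∈ MulAction.stabilizer G x₀ := hh'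
    simp only [dif_pos hhs, dif_pos hhs']
    have hmem : (⟨h, hhs⟩ : MulAction.stabilizer G x₀)⁻¹ * ⟨h', hhs'⟩
        ∈ U.subgroupOf (MulAction.stabilizer G x₀) := by
      rw [Subgroup.mem_subgroupOf]
      exact hu
    have := hβ1 ⟨h, hhs⟩ _ hmem
    rw [mul_inv_cancel_left] at this
    exact this.symm
  · intro h₁ h₂ hh₁ hh₂
    have hs₁ : h₁ ∈ MulAction.stabilizer G x₀ := hh₁
    have hs₂ : h₂ ∈ MulAction.stabilizer G x₀ := hh₂
    have hs₁₂ : h₁ * h₂ ∈ MulAction.stabilizer G x₀ := mul_mem hs₁ hs₂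
    simp only [dif_pos hs₁, dif_pos hs₂, dif_pos hs₁₂]
    exact hβ2 ⟨h₁, hs₁⟩ ⟨h₂, hs₂⟩

/-- **Shapiro in degree 2** for divisor functions, with pro-cyclic stabilisers: a
level-constant 2-cocycle whose cyclic invariants at the orbit representatives are divisible by
the orders of the Frobenius elements is the coboundary of a level-constant 1-cochain. -/
theorem sh2_core (U : Subgroup G) [U.Normal] (hU : ∀ g : G, ∃ n : ℕ, 0 < n ∧ g ^ n ∈ U)
    {V : Type*} (rep : V → X) (hrep : ∀ x, ∃! v, ∃ g : G, g • rep v = x)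
    (frob : V → G) (hfrob : ∀ v, frob v • rep v = rep v)
    (hcyc : ∀ v, ∀ h : G, h • rep v = rep v → ∃ i : ℕ, (frob v ^ i)⁻¹ * h ∈ U)
    (c : G → G → X → ℤ)
    (hc : ∀ ρ σ τ x, c σ τ (ρ⁻¹ • x) - c (ρ * σ) τ x + c ρ (σ * τ) x - c ρ σ x = 0)
    (hr₁ : ∀ σ τ, ∀ u ∈ U, c (σ * u) τ = c σ τ) (hr₂ : ∀ σ τ, ∀ u ∈ U, c σ (τ * u) = c σ τ)
    (hval : ∀ σ τ, ∀ u ∈ U, ∀ x, c σ τ (u • x) = c σ τ x)
    (hsum : ∀ v, ∀ n : ℕ, 0 < n → (∀ i : ℕ, frob v ^ i ∈ U ↔ n ∣ i) →
      (n : ℤ) ∣ ∑ k ∈ Finset.range n, c (frob v ^ k) (frob v) (rep v)) :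
    ∃ b : G → X → ℤ, (∀ σ, ∀ u ∈ U, b (σ * u) = b σ) ∧
      (∀ σ, ∀ u ∈ U, ∀ x, b σ (u • x) = b σ x) ∧
      (∀ σ τ x, dv1 b σ τ x = c σ τ x) ∧
      ∀ σ x, b σ x ≠ 0 → ∃ ρ τ g : G, c ρ τ (g • x) ≠ 0 := by
  classical
  -- the primitives on the stabilisers
  choose β hβ1 hβ2 using fun v =>
    exists_stab_primitive U hU (rep v) (frob v) (hfrob v) (hcyc v) c hc hr₁ hr₂ (hsum v)
  -- congruences modulo `U`
  have hπU : ∀ u ∈ U, (QuotientGroup.mk' U) u = 1 := fun u hu =>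
    (QuotientGroup.eq_one_iff u).mpr hu
  have hπ : ∀ a b : G, (QuotientGroup.mk' U) a = (QuotientGroup.mk' U) b → a⁻¹ * b ∈ U :=
    fun a b h => QuotientGroup.eq.mp h
  have hcong : ∀ σ σ' τ τ' : G, (QuotientGroup.mk' U) σ = (QuotientGroup.mk' U) σ' →
      (QuotientGroup.mk' U) τ = (QuotientGroup.mk' U) τ' → c σ τ = c σ' τ' := by
    intro σ σ' τ τ' h1 h2
    have e1 : σ' = σ * (σ⁻¹ * σ') := by group
    have e2 : τ' = τ * (τ⁻¹ * τ') := by group
    rw [e1, e2, hr₁ _ _ _ (hπ _ _ h1), hr₂ _ _ _ (hπ _ _ h2)]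
  -- the orbit map and its section
  choose vOf hvOf hvuniq using fun x => (hrep x)
  obtain ⟨s, hs, hπs⟩ : ∃ s : X → G, (∀ x, s x • rep (vOf x) = x) ∧
      ∀ u ∈ U, ∀ x, (QuotientGroup.mk' U) (s (u • x)) = (QuotientGroup.mk' U) (s x) := by
    choose t ht using hvOf
    let S : Setoid X := ⟨fun x x' => ∃ u ∈ U, u • x = x',
      ⟨fun x => ⟨1, U.one_mem, one_smul _ _⟩,
       fun ⟨u, hu, h⟩ => ⟨u⁻¹, U.inv_mem hu, by rw [← h, inv_smul_smul]⟩,
       fun ⟨u, hu, h⟩ ⟨u', hu', h'⟩ => ⟨u' * u, U.mul_mem hu' hu, by rw [mul_smul, h, h']⟩⟩⟩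
    have hhat : ∀ x, ∃ u ∈ U, u • (Quotient.mk S x).out = x := fun x =>
      Quotient.exact (Quotient.out_eq (Quotient.mk S x))
    choose uu huU huu using hhat
    have hhat_smul : ∀ u ∈ U, ∀ x, (Quotient.mk S (u • x)).out = (Quotient.mk S x).out :=
      fun u hu x => congrArg Quotient.out
        (Quotient.sound (show S.r (u • x) x from ⟨u⁻¹, U.inv_mem hu, inv_smul_smul _ _⟩))
    have hvhat : ∀ x, vOf ((Quotient.mk S x).out) = vOf x := fun x =>
      hvuniq x (vOf ((Quotient.mk S x).out))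
        ⟨uu x * t ((Quotient.mk S x).out), by rw [mul_smul, ht, huu]⟩
    refine ⟨fun x => uu x * t ((Quotient.mk S x).out), fun x => ?_, fun u hu x => ?_⟩
    · show (uu x * t ((Quotient.mk S x).out)) • rep (vOf x) = x
      rw [← hvhat x, mul_smul, ht, huu]
    · show (QuotientGroup.mk' U) (uu (u • x) * t ((Quotient.mk S (u • x)).out))
        = (QuotientGroup.mk' U) (uu x * t ((Quotient.mk S x).out))
      rw [hhat_smul u hu x, map_mul, map_mul, hπU _ (huU _), hπU _ (huU _)]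
  have hvsmul : ∀ (g : G) x, vOf (g • x) = vOf x := fun g x =>
    (hvuniq (g • x) (vOf x) ⟨g * s x, by rw [mul_smul, hs]⟩).symm
  have hsinv : ∀ x, (s x)⁻¹ • x = rep (vOf x) := fun x => by rw [inv_smul_eq_iff, hs]
  -- the stabiliser elements attached to arrows
  obtain ⟨R, hRdef⟩ : ∃ R : G → X → G, ∀ g z, R g z = (s z)⁻¹ * g * s (g⁻¹ • z) :=
    ⟨_, fun _ _ => rfl⟩
  have hR : ∀ g z, R g z • rep (vOf z) = rep (vOf z) := fun g z => by
    rw [hRdef]
    have h1 : s (g⁻¹ • z) • rep (vOf z) = g⁻¹ • z := by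
      have := hs (g⁻¹ • z)
      rwa [hvsmul] at this
    rw [mul_smul, mul_smul, h1, smul_inv_smul, hsinv]
  -- orbits on which `c` vanishes identically
  obtain ⟨Z, hZdef⟩ : ∃ Z : X → Prop, ∀ z, Z z ↔ ∀ ρ τ g : G, c ρ τ (g • z) = 0 :=
    ⟨_, fun _ => Iff.rfl⟩
  have hZ : ∀ (g : G) z, Z (g • z) ↔ Z z := by
    intro g z
    rw [hZdef, hZdef]
    constructor
    · intro h ρ τ g'
      have := h ρ τ (g' * g⁻¹)
      rwa [smul_smul, inv_mul_cancel_right] at this
    · intro h ρ τ g'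
      have := h ρ τ (g' * g)
      rwa [mul_smul] at this
  obtain ⟨b, hbdef⟩ : ∃ b : G → X → ℤ, ∀ g z, b g z = if Z z then 0 else
      c g (s (g⁻¹ • z)) z - c (s z) (R g z) z + β (vOf z) (R g z) := ⟨_, fun _ _ => rfl⟩
  refine ⟨b, ?_, ?_, ?_, ?_⟩
  · -- right invariance
    intro g u hu
    funext z
    rw [hbdef, hbdef]
    by_cases hz : Z z
    · rw [if_pos hz, if_pos hz]
    · rw [if_neg hz, if_neg hz]
      have e1 : (g * u)⁻¹ • z = u⁻¹ • g⁻¹ • z := by rw [mul_inv_rev, mul_smul]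
      have h1 : (QuotientGroup.mk' U) (s ((g * u)⁻¹ • z))
          = (QuotientGroup.mk' U) (s (g⁻¹ • z)) := by
        rw [e1]
        exact hπs _ (U.inv_mem hu) _
      have h2 : (QuotientGroup.mk' U) (g * u) = (QuotientGroup.mk' U) g := by
        rw [map_mul, hπU u hu, mul_one]
      have h3 : (QuotientGroup.mk' U) (R (g * u) z) = (QuotientGroup.mk' U) (R g z) := by
        rw [hRdef, hRdef, map_mul _ _ (s ((g * u)⁻¹ • z)), map_mul _ _ (s (g⁻¹ • z)),
          map_mul _ _ (g * u), map_mul _ _ g, h1, h2]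
      rw [hcong _ _ _ _ h2 h1, hcong _ _ _ _ rfl h3,
        hβ1 _ _ _ (hR (g * u) z) (hR g z) (hπ _ _ h3)]
  · -- invariance of the values
    intro g u hu z
    rw [hbdef, hbdef]
    by_cases hz : Z z
    · rw [if_pos hz, if_pos ((hZ u z).mpr hz)]
    · rw [if_neg hz, if_neg (fun h => hz ((hZ u z).mp h))]
      have e1 : g⁻¹ • u • z = (g⁻¹ * u * g) • g⁻¹ • z := by
        rw [smul_smul, smul_smul, mul_inv_cancel_right]
      have hconj : g⁻¹ * u * g ∈ U := by
        have := (inferInstance : U.Normal).conj_mem u hu g⁻¹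
        rwa [inv_inv] at this
      have h1 : (QuotientGroup.mk' U) (s (g⁻¹ • u • z))
          = (QuotientGroup.mk' U) (s (g⁻¹ • z)) := by
        rw [e1]
        exact hπs _ hconj _
      have h2 : (QuotientGroup.mk' U) (s (u • z)) = (QuotientGroup.mk' U) (s z) := hπs u hu z
      have h3 : (QuotientGroup.mk' U) (R g (u • z)) = (QuotientGroup.mk' U) (R g z) := by
        rw [hRdef, hRdef, map_mul _ _ (s (g⁻¹ • u • z)), map_mul _ _ (s (g⁻¹ • z)),
          map_mul _ _ g, map_mul _ _ g, map_inv, map_inv, h1, h2]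
      have hR' : R g (u • z) • rep (vOf z) = rep (vOf z) := by
        have := hR g (u • z)
        rwa [hvsmul] at this
      rw [hval _ _ u hu, hval _ _ u hu, hcong _ _ _ _ rfl h1, hcong _ _ _ _ h2 h3, hvsmul,
        hβ1 _ _ _ hR' (hR g z) (hπ _ _ h3)]
  · -- the coboundary
    intro σ τ z
    show b τ (σ⁻¹ • z) - b (σ * τ) z + b σ z = c σ τ z
    rw [hbdef, hbdef, hbdef]
    by_cases hz : Z z
    · simp only [if_pos hz, if_pos ((hZ σ⁻¹ z).mpr hz)]
      have := (hZdef z).mp hz σ τ 1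
      rw [one_smul] at this
      rw [this]
      ring
    · have hz' : ¬ Z (σ⁻¹ • z) := fun h => hz ((hZ σ⁻¹ z).mp h)
      simp only [if_neg hz, if_neg hz']
      have ey : (σ * τ)⁻¹ • z = τ⁻¹ • σ⁻¹ • z := by rw [mul_inv_rev, mul_smul]
      rw [ey, hvsmul]
      have hR12 : R (σ * τ) z = R σ z * R τ (σ⁻¹ • z) := by
        rw [hRdef, hRdef, hRdef, ey]
        group
      have hRτ : R τ (σ⁻¹ • z) • rep (vOf z) = rep (vOf z) := by
        have := hR τ (σ⁻¹ • z)
        rwa [hvsmul] at this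
      have I1 := hc σ τ (s (τ⁻¹ • σ⁻¹ • z)) z
      have I2 := hc σ (s (σ⁻¹ • z)) (R τ (σ⁻¹ • z)) z
      have I3 := hc (s z) (R σ z) (R τ (σ⁻¹ • z)) z
      have e2 : s (σ⁻¹ • z) * R τ (σ⁻¹ • z) = τ * s (τ⁻¹ • σ⁻¹ • z) := by
        rw [hRdef]
        group
      have e3 : s z * R σ z = σ * s (σ⁻¹ • z) := by
        rw [hRdef]
        group
      rw [e2] at I2
      rw [e3, hsinv] at I3
      have B := hβ2 (vOf z) (R σ z) (R τ (σ⁻¹ • z)) (hR σ z) hRτ
      rw [hR12]
      linarith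
  · -- support
    intro σ x hx
    by_contra hcon
    have hz : Z x := (hZdef x).mpr fun ρ τ g => by
      by_contra h
      exact hcon ⟨ρ, τ, g, h⟩
    apply hx
    rw [hbdef, if_pos hz]

end SH2

end Fermat.Agent.S55.H11
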