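/-
Program C (S55), package C9b, leaf block L2-P (helper11): the divisor package.

`DivData D P X V`: a representation `P` of `G` over `ℤ` (in the application `P_S = ℚ_S^× / E_S`
restricted to `G_F`) with an injective, equivariant "divisor map" `dv : P → (X → ℤ)` to the
integer functions on a `G`-set `X` (valuation rings of `ℚ̄` over the primes outside `S`), whose
values are supported on finitely many orbits, a system `rep : V → X` of orbit representatives
and "Frobenius" elements `frob v` generating the stabiliser of `rep v` modulo every level.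

* `DivData.lam v : Hlc D P 2 →+ ℚ/ℤ`, the unramified invariant at `v`
  (`lam_cls_eq`: the class of a cocycle `c`, level-constant modulo `U` with `frob v ^ n ∈ U`, goes
  to `(∑_{k<n} dv (c(frob^k, frob)) (rep v)) / n`).
* `DivData.pbfin` : `lam v z = 0` for all but finitely many `v`.
-/
import Mathlib
import Fermat.Agent.S55.H11.DivCore
import Fermat.Agent.S55.H68.Bridge1Core
import Fermat.Agent.S55.H41.Bridge2Core

set_option autoImplicit false

open CategoryTheory groupCohomology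
open Fermat.Agent.S55.H49

noncomputable section

namespace Fermat.Agent.S55.H11

variable {G : Type} [Group G]

/-- Divisor data for a representation `P` (see the file header). -/
structure DivData (D : LevelDatum G) (P : Rep.{0} ℤ G) (X : Type) [MulAction G X] (V : Type) where
  /-- the divisor map -/
  dv : P →+ (X → ℤ)
  dv_smul : ∀ (σ : G) (m : P) (x : X), dv (P.ρ σ m) x = dv m (σ⁻¹ • x)
  dv_inj : Function.Injective dv
  dv_fin : ∀ m : P, ∃ t : Finset X, ∀ x, dv m x ≠ 0 → ∃ y ∈ t, ∃ g : G, g • y = x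
  /-- orbit representatives -/
  rep : V → X
  rep_unique : ∀ x, ∃! v, ∃ g : G, g • rep v = x
  /-- Frobenius elements -/
  frob : V → G
  frob_fix : ∀ v, frob v • rep v = rep v
  frob_gen : ∀ F : IntermediateField ℚ (AlgebraicClosure ℚ), D.Lev F → (F.fixingSubgroup).Normal →
    ∀ v, ∀ h : G, h • rep v = rep v → ∃ i : ℕ, (frob v ^ i)⁻¹ * h ∈ D.sub F

variable {D : LevelDatum G} {P : Rep.{0} ℤ G} {X : Type} [MulAction G X] {V : Type}

/-! ### Low-degree formulas -/

omit [MulAction G X] in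
theorem d_two_apply (f : (Fin 2 → G) → P) (g : Fin 3 → G) :
    (inhomogeneousCochains.d P 2).hom f g =
      P.ρ (g 0) (f ![g 1, g 2]) - f ![g 0 * g 1, g 2] + f ![g 0, g 1 * g 2] - f ![g 0, g 1] := by
  have e : f = H41.toFin2 P (fun q : G × G => f ![q.1, q.2]) := by
    funext h
    show f h = f ![h 0, h 1]
    rw [H41.vec2_eta]
  conv_lhs => rw [e]
  exact H41.d_toFin2_apply P _ g

omit [Group G] [MulAction G X] in
theorem vec1_eq (σ : G) : (![σ] : Fin 1 → G) = fun _ => σ := by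
  funext i
  fin_cases i
  rfl

omit [Group G] [MulAction G X] in
theorem fin1_eta (g : Fin 1 → G) : (fun _ => g 0 : Fin 1 → G) = g := by
  funext i
  rw [Fin.fin_one_eq_zero i]

/-- level-constancy of a 2-cochain, in terms of two variables. -/
theorem isLCAt_two {U : Subgroup G} {c : (Fin 2 → G) → P} (hc : IsLCAt U P c)
    (σ τ u u' : G) (hu : u ∈ U) (hu' : u' ∈ U) : c ![σ * u, τ * u'] = c ![σ, τ] := by
  have e : (![σ * u, τ * u'] : Fin 2 → G) = ![σ, τ] * ![u, u'] := by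
    funext i
    fin_cases i <;> rfl
  rw [e]
  refine hc.1 _ _ fun i => ?_
  fin_cases i
  · exact hu
  · exact hu'

/-- level-constancy of a 1-cochain, in terms of one variable. -/
theorem isLCAt_one {U : Subgroup G} {b : (Fin 1 → G) → P} (hb : IsLCAt U P b)
    (σ u : G) (hu : u ∈ U) : b (fun _ => σ * u) = b fun _ => σ := by
  have e : (fun _ => σ * u : Fin 1 → G) = (fun _ => σ) * fun _ => u := rfl
  rw [e]
  exact hb.1 _ _ fun _ => hu

/-- Two level-constant cochains have a common normal level. -/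
theorem exists_common_level {n m : ℕ} {f : (Fin n → G) → P} {f' : (Fin m → G) → P}
    (hf : IsLC D P f) (hf' : IsLC D P f') :
    ∃ F : IntermediateField ℚ (AlgebraicClosure ℚ), D.Lev F ∧ (F.fixingSubgroup).Normal ∧
      IsLCAt (D.sub F) P f ∧ IsLCAt (D.sub F) P f' := by
  obtain ⟨F, hF, hN, h⟩ := hf
  obtain ⟨F', hF', hN', h'⟩ := hf'
  exact ⟨F ⊔ F', D.sup hF hF', normal_fixingSubgroup_sup hN hN',
    h.mono (D.sub_antitone le_sup_left), h'.mono (D.sub_antitone le_sup_right)⟩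

theorem exists_pow_mem_sub (hfin : ∀ F, D.Lev F → (D.sub F).FiniteIndex)
    {F : IntermediateField ℚ (AlgebraicClosure ℚ)} (hF : D.Lev F) (g : G) :
    ∃ n : ℕ, 0 < n ∧ g ^ n ∈ D.sub F := by
  have := hfin F hF
  obtain ⟨n, hn, -, h⟩ := Subgroup.exists_pow_mem_of_index_ne_zero
    (Subgroup.FiniteIndex.index_ne_zero (H := D.sub F)) g
  exact ⟨n, hn, h⟩

namespace DivData

variable (dd : DivData D P X V)

theorem dv_fix_inv {m : P} {s : G} (h : P.ρ s m = m) (x : X) :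
    dd.dv m (s • x) = dd.dv m x := by
  have h1 := dd.dv_smul s m (s • x)
  rw [h, inv_smul_smul] at h1
  exact h1

/-! ### The unramified invariant -/

/-- The partial sums `∑_{k<n} dv (c(frob^k, frob)) (rep v)`. -/
def lamSum (v : V) (c : (Fin 2 → G) → P) (n : ℕ) : ℤ :=
  ∑ k ∈ Finset.range n, dd.dv (c ![dd.frob v ^ k, dd.frob v]) (dd.rep v)

theorem lamSum_add (v : V) (c c' : (Fin 2 → G) → P) (n : ℕ) :
    dd.lamSum v (c + c') n = dd.lamSum v c n + dd.lamSum v c' n := by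
  simp only [lamSum, Pi.add_apply, map_add, Finset.sum_add_distrib]

theorem lamSum_period {U : Subgroup G} (v : V) {c : (Fin 2 → G) → P} (hc : IsLCAt U P c)
    {f : ℕ} (hf : dd.frob v ^ f ∈ U) (n : ℕ) :
    dd.lamSum v c (f + n) = dd.lamSum v c f + dd.lamSum v c n := by
  simp only [lamSum]
  rw [Finset.sum_range_add]
  congr 1
  refine Finset.sum_congr rfl fun k _ => ?_
  have e : dd.frob v ^ (f + k) = dd.frob v ^ k * dd.frob v ^ f := by
    rw [add_comm, pow_add]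
  have h1 := isLCAt_two hc (dd.frob v ^ k) (dd.frob v) (dd.frob v ^ f) 1 hf U.one_mem
  rw [mul_one] at h1
  rw [e, h1]

theorem lamSum_mul {U : Subgroup G} (v : V) {c : (Fin 2 → G) → P} (hc : IsLCAt U P c)
    {f : ℕ} (hf : dd.frob v ^ f ∈ U) (q : ℕ) :
    dd.lamSum v c (f * q) = q * dd.lamSum v c f := by
  induction q with
  | zero => simp [lamSum]
  | succ q ih =>
      have e : f * (q + 1) = f + f * q := by ring
      rw [e, dd.lamSum_period v hc hf, ih]
      push_cast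
      ring

/-- Independence of the level. -/
theorem lamSum_indep {U U' : Subgroup G} (v : V) {c : (Fin 2 → G) → P} (hc : IsLCAt U P c)
    (hc' : IsLCAt U' P c) {f f' : ℕ} (hf0 : 0 < f) (hf0' : 0 < f') (hf : dd.frob v ^ f ∈ U)
    (hf' : dd.frob v ^ f' ∈ U') :
    ((dd.lamSum v c f : ℤ) : ℚ) / f = ((dd.lamSum v c f' : ℤ) : ℚ) / f' := by
  have h1 := dd.lamSum_mul v hc hf f'
  have h2 := dd.lamSum_mul v hc' hf' f
  rw [mul_comm f' f, h1] at h2
  have h3 : ((f' : ℤ) : ℚ) * (dd.lamSum v c f : ℚ) = (f : ℚ) * (dd.lamSum v c f' : ℚ) := by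
    exact_mod_cast h2
  have hfq : (f : ℚ) ≠ 0 := by exact_mod_cast hf0.ne'
  have hfq' : (f' : ℚ) ≠ 0 := by exact_mod_cast hf0'.ne'
  field_simp
  push_cast at h3
  linarith

/-- The invariant on cochain functions (junk value `0` on non-level-constant functions). -/
def lamFun (v : V) (c : (Fin 2 → G) → P) : AddCircle (1 : ℚ) :=
  open Classical in
  if h : ∃ (F : IntermediateField ℚ (AlgebraicClosure ℚ)) (n : ℕ), D.Lev F ∧
      (F.fixingSubgroup).Normal ∧ IsLCAt (D.sub F) P c ∧ 0 < n ∧ dd.frob v ^ n ∈ D.sub F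
  then ((((dd.lamSum v c h.choose_spec.choose : ℤ) : ℚ) / (h.choose_spec.choose : ℚ) : ℚ) :
    AddCircle (1 : ℚ))
  else 0

theorem lamFun_eq (v : V) {c : (Fin 2 → G) → P}
    {F : IntermediateField ℚ (AlgebraicClosure ℚ)} (hF : D.Lev F) (hN : (F.fixingSubgroup).Normal)
    (hc : IsLCAt (D.sub F) P c) {n : ℕ} (hn : 0 < n) (hfn : dd.frob v ^ n ∈ D.sub F) :
    dd.lamFun v c = ((((dd.lamSum v c n : ℤ) : ℚ) / (n : ℚ) : ℚ) : AddCircle (1 : ℚ)) := by
  have h : ∃ (F : IntermediateField ℚ (AlgebraicClosure ℚ)) (n : ℕ), D.Lev F ∧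
      (F.fixingSubgroup).Normal ∧ IsLCAt (D.sub F) P c ∧ 0 < n ∧ dd.frob v ^ n ∈ D.sub F :=
    ⟨F, n, hF, hN, hc, hn, hfn⟩
  unfold lamFun
  rw [dif_pos h]
  obtain ⟨-, -, hc', hn', hfn'⟩ := h.choose_spec.choose_spec
  rw [dd.lamSum_indep v hc' hc hn' hn hfn' hfn]

theorem lamFun_add (hfin : ∀ F, D.Lev F → (D.sub F).FiniteIndex) (v : V)
    {c c' : (Fin 2 → G) → P} (hc : IsLC D P c) (hc' : IsLC D P c') :
    dd.lamFun v (c + c') = dd.lamFun v c + dd.lamFun v c' := by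
  obtain ⟨F, hF, hN, h, h'⟩ := exists_common_level hc hc'
  obtain ⟨n, hn, hfn⟩ := exists_pow_mem_sub hfin hF (dd.frob v)
  rw [dd.lamFun_eq v hF hN h hn hfn, dd.lamFun_eq v hF hN h' hn hfn,
    dd.lamFun_eq v hF hN (h.add h') hn hfn, lamSum_add, ← AddCircle.coe_add]
  push_cast
  rw [add_div]

theorem lamFun_d (hfin : ∀ F, D.Lev F → (D.sub F).FiniteIndex) (v : V)
    {b : (Fin 1 → G) → P} (hb : IsLC D P b) :
    dd.lamFun v ((inhomogeneousCochains.d P 1).hom b) = 0 := by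
  obtain ⟨F, hF, hN, h⟩ := hb
  obtain ⟨n, hn, hfn⟩ := exists_pow_mem_sub hfin hF (dd.frob v)
  rw [dd.lamFun_eq v hF hN (h.d (D.sub_normal hN)) hn hfn]
  -- the sum telescopes
  have hfixk : ∀ k : ℕ, (dd.frob v ^ k)⁻¹ • dd.rep v = dd.rep v := by
    intro k
    rw [inv_smul_eq_iff]
    induction k with
    | zero => simp
    | succ k ih => rw [pow_succ, mul_smul, dd.frob_fix, ← ih]
  have hterm : ∀ k : ℕ,
      dd.dv ((inhomogeneousCochains.d P 1).hom b ![dd.frob v ^ k, dd.frob v]) (dd.rep v)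
        = dd.dv (b fun _ => dd.frob v) (dd.rep v)
          - (dd.dv (b fun _ => dd.frob v ^ (k + 1)) (dd.rep v)
            - dd.dv (b fun _ => dd.frob v ^ k) (dd.rep v)) := by
    intro k
    rw [H68.d_one_apply]
    simp only [Matrix.cons_val_zero, Matrix.cons_val_one, map_add, map_sub, Pi.add_apply,
      Pi.sub_apply]
    rw [dd.dv_smul, hfixk, pow_succ]
    ring
  have hsum : dd.lamSum v ((inhomogeneousCochains.d P 1).hom b) n
      = n * dd.dv (b fun _ => dd.frob v) (dd.rep v) := by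
    unfold lamSum
    rw [Finset.sum_congr rfl fun k _ => hterm k, Finset.sum_sub_distrib,
      Finset.sum_range_sub (fun k => dd.dv (b fun _ => dd.frob v ^ k) (dd.rep v)) n,
      Finset.sum_const, Finset.card_range, nsmul_eq_mul]
    have h1 := isLCAt_one h 1 (dd.frob v ^ n) hfn
    rw [one_mul] at h1
    rw [pow_zero, h1]
    ring
  rw [hsum, AddCircle.coe_eq_zero_iff]
  refine ⟨dd.dv (b fun _ => dd.frob v) (dd.rep v), ?_⟩
  have hnq : (n : ℚ) ≠ 0 := by exact_mod_cast hn.ne'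
  push_cast
  field_simp
  simp

/-- `lamFun` only depends on the cohomology class. -/
theorem lamFun_congr (hfin : ∀ F, D.Lev F → (D.sub F).FiniteIndex) (v : V)
    (z z' : cyc (lcComplex D P) 2)
    (h : (cls (lcComplex D P) 2).hom z = (cls (lcComplex D P) 2).hom z') :
    dd.lamFun v (lcVal z) = dd.lamFun v (lcVal z') := by
  obtain ⟨y, hy⟩ := (cls_eq_cls_iff (lcComplex D P) 1 z z').mp h
  have h1 : lcVal z = lcVal z' + (inhomogeneousCochains.d P 1).hom (lcValC y) := by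
    have h2 : lcValC (((lcComplex D P).d 1 (1 + 1)).hom y) = lcValC (z.1 - z'.1) :=
      congrArg lcValC hy
    rw [H68.lcValC_d] at h2
    rw [h2]
    show lcValC z.1 = lcValC z'.1 + (lcValC z.1 - lcValC z'.1)
    abel
  have hlc' : IsLC D P (lcVal z') := H68.isLC_lcValC D P z'.1
  have hlcy : IsLC D P (lcValC y) := H68.isLC_lcValC D P y
  rw [h1, dd.lamFun_add hfin v hlc' hlcy.d, dd.lamFun_d hfin v hlcy, add_zero]

/-- The unramified invariant on the homology of `lcComplex`. -/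
def lamAux (hfin : ∀ F, D.Lev F → (D.sub F).FiniteIndex) (v : V) :
    (lcComplex D P).homology 2 →+ AddCircle (1 : ℚ) :=
  AddMonoidHom.mk' (fun x => dd.lamFun v (lcVal (cls_surjective (lcComplex D P) 2 x).choose))
    (by
      intro x x'
      have h1 : (cls (lcComplex D P) 2).hom (cls_surjective (lcComplex D P) 2 (x + x')).choose
          = (cls (lcComplex D P) 2).hom ((cls_surjective (lcComplex D P) 2 x).choose
            + (cls_surjective (lcComplex D P) 2 x').choose) := by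
        rw [map_add, (cls_surjective (lcComplex D P) 2 (x + x')).choose_spec,
          (cls_surjective (lcComplex D P) 2 x).choose_spec,
          (cls_surjective (lcComplex D P) 2 x').choose_spec]
      rw [dd.lamFun_congr hfin v _ _ h1]
      have hlc : IsLC D P (lcVal (cls_surjective (lcComplex D P) 2 x).choose) :=
        H68.isLC_lcValC D P (cls_surjective (lcComplex D P) 2 x).choose.1
      have hlc' : IsLC D P (lcVal (cls_surjective (lcComplex D P) 2 x').choose) :=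
        H68.isLC_lcValC D P (cls_surjective (lcComplex D P) 2 x').choose.1
      exact dd.lamFun_add hfin v hlc hlc')

/-- **The unramified invariant at `v`** on `H²`. -/
def lam (hfin : ∀ F, D.Lev F → (D.sub F).FiniteIndex) (v : V) :
    Hlc D P 2 →+ AddCircle (1 : ℚ) :=
  dd.lamAux hfin v

theorem lamAux_cls (hfin : ∀ F, D.Lev F → (D.sub F).FiniteIndex) (v : V)
    (z : cyc (lcComplex D P) 2) :
    dd.lamAux hfin v ((cls (lcComplex D P) 2).hom z) = dd.lamFun v (lcVal z) :=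
  dd.lamFun_congr hfin v _ z
    (cls_surjective (lcComplex D P) 2 ((cls (lcComplex D P) 2).hom z)).choose_spec

theorem lamAux_cls_eq (hfin : ∀ F, D.Lev F → (D.sub F).FiniteIndex) (v : V)
    (z : cyc (lcComplex D P) 2) {F : IntermediateField ℚ (AlgebraicClosure ℚ)} (hF : D.Lev F)
    (hN : (F.fixingSubgroup).Normal) (hc : IsLCAt (D.sub F) P (lcVal z)) {n : ℕ} (hn : 0 < n)
    (hfn : dd.frob v ^ n ∈ D.sub F) :
    dd.lamAux hfin v ((cls (lcComplex D P) 2).hom z)
      = ((((∑ k ∈ Finset.range n,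
          dd.dv (lcVal z ![dd.frob v ^ k, dd.frob v]) (dd.rep v) : ℤ) : ℚ) / (n : ℚ) : ℚ) :
        AddCircle (1 : ℚ)) := by
  rw [dd.lamAux_cls hfin v z, dd.lamFun_eq v hF hN hc hn hfn]
  rfl

theorem lam_cls (hfin : ∀ F, D.Lev F → (D.sub F).FiniteIndex) (v : V)
    (z : cyc (lcComplex D P) 2) :
    dd.lam hfin v ((cls (lcComplex D P) 2).hom z) = dd.lamFun v (lcVal z) :=
  dd.lamAux_cls hfin v z

/-- **The explicit formula for `lam`** (the unramified invariant formula). -/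
theorem lam_cls_eq (hfin : ∀ F, D.Lev F → (D.sub F).FiniteIndex) (v : V)
    (z : cyc (lcComplex D P) 2) {F : IntermediateField ℚ (AlgebraicClosure ℚ)} (hF : D.Lev F)
    (hN : (F.fixingSubgroup).Normal) (hc : IsLCAt (D.sub F) P (lcVal z)) {n : ℕ} (hn : 0 < n)
    (hfn : dd.frob v ^ n ∈ D.sub F) :
    dd.lam hfin v ((cls (lcComplex D P) 2).hom z)
      = ((((∑ k ∈ Finset.range n,
          dd.dv (lcVal z ![dd.frob v ^ k, dd.frob v]) (dd.rep v) : ℤ) : ℚ) / (n : ℚ) : ℚ) :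
        AddCircle (1 : ℚ)) :=
  dd.lamAux_cls_eq hfin v z hF hN hc hn hfn

/-! ### Finiteness of supports -/

/-- The values of a level-constant cochain are supported on finitely many orbits, uniformly. -/
theorem exists_finset_support (hfin : ∀ F, D.Lev F → (D.sub F).FiniteIndex) {n : ℕ}
    {f : (Fin n → G) → P} (hf : IsLC D P f) :
    ∃ T : Finset X, ∀ (g : Fin n → G) (x : X), dd.dv (f g) x ≠ 0 →
      ∃ y ∈ T, ∃ h : G, h • y = x := by
  classical
  obtain ⟨F, hF, -, h1, -⟩ := hf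
  have := hfin F hF
  have hfinite : Finite (Fin n → G ⧸ D.sub F) := inferInstance
  let _ := Fintype.ofFinite (Fin n → G ⧸ D.sub F)
  choose tt htt using fun q : Fin n → G ⧸ D.sub F => dd.dv_fin (f fun i => (q i).out)
  refine ⟨Finset.univ.biUnion tt, fun g x hx => ?_⟩
  have e : f g = f fun i => ((g i : G ⧸ D.sub F)).out := by
    have h2 := h1 (fun i => ((g i : G ⧸ D.sub F)).out)
      (fun i => (((g i : G ⧸ D.sub F)).out)⁻¹ * g i)
      (fun i => QuotientGroup.eq.mp (QuotientGroup.out_eq' (g i : G ⧸ D.sub F)))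
    rw [← h2]
    congr 1
    funext i
    simp
  rw [e] at hx
  obtain ⟨y, hy, hh⟩ := htt (fun i => (g i : G ⧸ D.sub F)) x hx
  exact ⟨y, Finset.mem_biUnion.mpr ⟨_, Finset.mem_univ _, hy⟩, hh⟩

theorem pbfin_aux (hfin : ∀ F, D.Lev F → (D.sub F).FiniteIndex)
    (z : (lcComplex D P).homology 2) :
    ∃ W : Finset V, ∀ v, v ∉ W → dd.lamAux hfin v z = 0 := by
  classical
  obtain ⟨c, rfl⟩ := cls_surjective (lcComplex D P) 2 z
  have hcf : IsLC D P (lcVal c) := H68.isLC_lcValC D P c.1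
  obtain ⟨T, hT⟩ := dd.exists_finset_support hfin hcf
  choose vOf hvOf hvuniq using dd.rep_unique
  refine ⟨T.image vOf, fun v hv => ?_⟩
  obtain ⟨F, hF, hN, hcU⟩ := hcf
  obtain ⟨n, hn, hfn⟩ := exists_pow_mem_sub hfin hF (dd.frob v)
  rw [dd.lamAux_cls_eq hfin v c hF hN hcU hn hfn]
  have h0 : ∀ k ∈ Finset.range n,
      dd.dv (lcVal c ![dd.frob v ^ k, dd.frob v]) (dd.rep v) = 0 := by
    intro k _
    by_contra hne
    obtain ⟨y, hy, h, hh⟩ := hT _ _ hne
    apply hv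
    rw [Finset.mem_image]
    refine ⟨y, hy, (hvuniq y v ⟨h⁻¹, ?_⟩).symm⟩
    rw [inv_smul_eq_iff, hh]
  rw [Finset.sum_eq_zero h0]
  simp

/-- **(Pbfin)**: the invariants of a class vanish at all but finitely many `v`. -/
theorem pbfin (hfin : ∀ F, D.Lev F → (D.sub F).FiniteIndex) (z : Hlc D P 2) :
    ∃ W : Finset V, ∀ v, v ∉ W → dd.lam hfin v z = 0 :=
  dd.pbfin_aux hfin z

/-! ### The arithmetic hypotheses and the main theorems -/

/-- (D2a) Every level-invariant divisor with finite support has a positive multiple in the image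
of `dv` (finiteness of class groups). -/
def Torsion : Prop :=
  ∀ f : X → ℤ, (∃ t : Finset X, ∀ x, f x ≠ 0 → ∃ y ∈ t, ∃ g : G, g • y = x) →
    (∃ F : IntermediateField ℚ (AlgebraicClosure ℚ), D.Lev F ∧ (F.fixingSubgroup).Normal ∧
      ∀ u ∈ D.sub F, ∀ x, f (u • x) = f x) →
    ∃ n : ℕ, 0 < n ∧ ∃ m : P, ∀ x, dd.dv m x = n * f x

/-- (D2b) The cokernel of `dv` has no `p`-torsion (`p`-capitulation). -/
def PDiv (p : ℕ) : Prop :=
  ∀ (f : X → ℤ) (m : P), (∀ x, dd.dv m x = p * f x) → ∃ m' : P, ∀ x, dd.dv m' x = f x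

/-- (SAT) Every level-invariant divisor with finite support has a multiple prime to `p` in the
image of `dv` (finiteness of class groups + `p`-capitulation). -/
def Sat (p : ℕ) : Prop :=
  ∀ f : X → ℤ, (∃ t : Finset X, ∀ x, f x ≠ 0 → ∃ y ∈ t, ∃ g : G, g • y = x) →
    (∃ F : IntermediateField ℚ (AlgebraicClosure ℚ), D.Lev F ∧ (F.fixingSubgroup).Normal ∧
      ∀ u ∈ D.sub F, ∀ x, f (u • x) = f x) →
    ∃ n : ℕ, 0 < n ∧ ¬ p ∣ n ∧ ∃ m : P, ∀ x, dd.dv m x = n * f x

variable {dd}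

theorem PDiv.pow {p : ℕ} (h : dd.PDiv p) : ∀ (k : ℕ) (f : X → ℤ) (m : P),
    (∀ x, dd.dv m x = (p : ℤ) ^ k * f x) → ∃ m' : P, ∀ x, dd.dv m' x = f x := by
  intro k
  induction k with
  | zero =>
      intro f m hm
      exact ⟨m, fun x => by rw [hm x, pow_zero, one_mul]⟩
  | succ k ih =>
      intro f m hm
      obtain ⟨m₁, hm₁⟩ := h (fun x => (p : ℤ) ^ k * f x) m fun x => by
        rw [hm x, pow_succ]
        ring
      exact ih f m₁ hm₁

theorem Torsion.coprime {p : ℕ} (hp : p.Prime) (ht : dd.Torsion) (hd : dd.PDiv p) (f : X → ℤ)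
    (hf1 : ∃ t : Finset X, ∀ x, f x ≠ 0 → ∃ y ∈ t, ∃ g : G, g • y = x)
    (hf2 : ∃ F : IntermediateField ℚ (AlgebraicClosure ℚ), D.Lev F ∧ (F.fixingSubgroup).Normal ∧
      ∀ u ∈ D.sub F, ∀ x, f (u • x) = f x) :
    ∃ n : ℕ, ¬ p ∣ n ∧ ∃ m : P, ∀ x, dd.dv m x = n * f x := by
  obtain ⟨n, hn, m, hm⟩ := ht f hf1 hf2
  obtain ⟨j, n', hn', rfl⟩ := Nat.exists_eq_pow_mul_and_not_dvd hn.ne' p hp.ne_one
  obtain ⟨m', hm'⟩ := hd.pow j (fun x => (n' : ℤ) * f x) m fun x => by
    rw [hm x]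
    push_cast
    ring
  exact ⟨n', hn', m', hm'⟩

omit [MulAction G X] in
theorem exists_bezout {p : ℕ} (hp : p.Prime) (k : ℕ) {n : ℕ} (hn : ¬ p ∣ n) :
    ∃ a b : ℤ, a * (p : ℤ) ^ k + b * n = 1 := by
  have h1 : Nat.Coprime (p ^ k) n := Nat.Coprime.pow_left k ((Nat.Prime.coprime_iff_not_dvd hp).mpr hn)
  obtain ⟨a, b, hab⟩ := Nat.isCoprime_iff_coprime.mpr h1
  exact ⟨a, b, by push_cast at hab; exact hab⟩

theorem Sat.of_torsion_pdiv {p : ℕ} (hp : p.Prime) (ht : dd.Torsion) (hd : dd.PDiv p) :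
    dd.Sat p := by
  intro f hf1 hf2
  obtain ⟨n, hn, m, hm⟩ := ht.coprime hp hd f hf1 hf2
  refine ⟨n, Nat.pos_of_ne_zero fun h0 => hn (h0 ▸ dvd_zero p), hn, m, hm⟩

/-- Under (SAT), a level-invariant function with a `p`-power multiple in the image of `dv` is in
the image of `dv`. -/
theorem Sat.pdiv {p : ℕ} (hp : p.Prime) (hs : dd.Sat p) (k : ℕ) (f : X → ℤ) (m : P)
    (hm : ∀ x, dd.dv m x = (p : ℤ) ^ k * f x)
    (hf2 : ∃ F : IntermediateField ℚ (AlgebraicClosure ℚ), D.Lev F ∧ (F.fixingSubgroup).Normal ∧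
      ∀ u ∈ D.sub F, ∀ x, f (u • x) = f x) :
    ∃ m' : P, ∀ x, dd.dv m' x = f x := by
  obtain ⟨t, ht⟩ := dd.dv_fin m
  have hpk : ((p : ℤ) ^ k) ≠ 0 := pow_ne_zero _ (by exact_mod_cast hp.ne_zero)
  have hf1 : ∃ t : Finset X, ∀ x, f x ≠ 0 → ∃ y ∈ t, ∃ g : G, g • y = x :=
    ⟨t, fun x hx => ht x (by rw [hm x]; exact mul_ne_zero hpk hx)⟩
  obtain ⟨n, -, hn, m₂, hm₂⟩ := hs f hf1 hf2
  obtain ⟨a, b, hab⟩ := exists_bezout hp k hn
  refine ⟨a • m + b • m₂, fun x => ?_⟩
  simp only [map_add, map_zsmul, Pi.add_apply, Pi.smul_apply, smul_eq_mul, hm x, hm₂ x]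
  linear_combination f x * hab

theorem pb_aux (hfin : ∀ F, D.Lev F → (D.sub F).FiniteIndex) {p : ℕ} (hp : p.Prime)
    (hs : dd.Sat p) (z : (lcComplex D P).homology 2)
    (hz : ∃ k : ℕ, p ^ k • z = 0) (hlam : ∀ v, dd.lamAux hfin v z = 0) : z = 0 := by
  classical
  obtain ⟨c, rfl⟩ := cls_surjective (lcComplex D P) 2 z
  obtain ⟨k, hk⟩ := hz
  rw [← map_nsmul, cls_eq_zero_iff (lcComplex D P) 1] at hk
  obtain ⟨y, hy⟩ := hk
  have hcf : IsLC D P (lcVal c) := H68.isLC_lcValC D P c.1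
  have hbf : IsLC D P (lcValC y) := H68.isLC_lcValC D P y
  have hdc : (inhomogeneousCochains.d P 2).hom (lcVal c) = 0 := by
    have h1 : lcValC (((lcComplex D P).d 2 (2 + 1)).hom c.1) = 0 := by
      rw [mem_cyc.mp c.2]
      rfl
    rwa [H68.lcValC_d] at h1
  have hdb : (inhomogeneousCochains.d P 1).hom (lcValC y) = p ^ k • lcVal c := by
    have h1 := congrArg lcValC hy
    rw [H68.lcValC_d] at h1
    exact h1
  obtain ⟨F, hF, hN, hcU, hbU⟩ := exists_common_level hcf hbf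
  have hUn : (D.sub F).Normal := D.sub_normal hN
  have hU : ∀ g : G, ∃ n : ℕ, 0 < n ∧ g ^ n ∈ D.sub F := exists_pow_mem_sub hfin hF
  -- the divisor cocycle
  have hc : ∀ (ρ σ τ : G) (x : X),
      dd.dv (lcVal c ![σ, τ]) (ρ⁻¹ • x) - dd.dv (lcVal c ![ρ * σ, τ]) x
        + dd.dv (lcVal c ![ρ, σ * τ]) x - dd.dv (lcVal c ![ρ, σ]) x = 0 := by
    intro ρ σ τ x
    have h1 : P.ρ ρ (lcVal c ![σ, τ]) - lcVal c ![ρ * σ, τ] + lcVal c ![ρ, σ * τ]
        - lcVal c ![ρ, σ] = 0 := by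
      have := congrFun hdc ![ρ, σ, τ]
      rw [d_two_apply] at this
      exact this
    have h2 := congrFun (congrArg dd.dv h1) x
    simp only [map_sub, map_add, map_zero, Pi.sub_apply, Pi.add_apply, Pi.zero_apply,
      dd.dv_smul] at h2
    exact h2
  have hsum : ∀ v, ∀ n : ℕ, 0 < n → (∀ i : ℕ, dd.frob v ^ i ∈ D.sub F ↔ n ∣ i) →
      (n : ℤ) ∣ ∑ k ∈ Finset.range n, dd.dv (lcVal c ![dd.frob v ^ k, dd.frob v]) (dd.rep v) := by
    intro v n hn hord
    have h1 := dd.lamAux_cls_eq hfin v c hF hN hcU hn ((hord n).mpr dvd_rfl)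
    rw [hlam v] at h1
    obtain ⟨m, hm⟩ := (AddCircle.coe_eq_zero_iff (1 : ℚ)).mp h1.symm
    have hnq : (n : ℚ) ≠ 0 := by exact_mod_cast hn.ne'
    rw [zsmul_eq_mul, mul_one, eq_div_iff hnq] at hm
    refine ⟨m, ?_⟩
    have : ((∑ k ∈ Finset.range n,
        dd.dv (lcVal c ![dd.frob v ^ k, dd.frob v]) (dd.rep v) : ℤ) : ℚ) = ((n * m : ℤ) : ℚ) := by
      rw [← hm]
      push_cast
      ring
    exact_mod_cast this
  obtain ⟨b, hb_r, hb_val, hb_d, hb_supp⟩ := sh2_core (D.sub F) hU dd.rep dd.rep_unique dd.frob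
    dd.frob_fix (dd.frob_gen F hF hN) (fun σ τ x => dd.dv (lcVal c ![σ, τ]) x) hc
    (fun σ τ u hu => by
      funext x
      have := isLCAt_two hcU σ τ u 1 hu (D.sub F).one_mem
      rw [mul_one] at this
      rw [this])
    (fun σ τ u hu => by
      funext x
      have := isLCAt_two hcU σ τ 1 u (D.sub F).one_mem hu
      rw [mul_one] at this
      rw [this])
    (fun σ τ u hu x => dd.dv_fix_inv (hcU.2 _ u hu) x) hsum
  -- `p^k b - b'` is a 1-cocycle
  have hB' : ∀ (σ τ : G) (x : X),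
      dd.dv (lcValC y fun _ => τ) (σ⁻¹ • x) - dd.dv (lcValC y fun _ => σ * τ) x
        + dd.dv (lcValC y fun _ => σ) x = (p : ℤ) ^ k * dd.dv (lcVal c ![σ, τ]) x := by
    intro σ τ x
    have h1 : P.ρ σ (lcValC y fun _ => τ) - lcValC y (fun _ => σ * τ) + lcValC y (fun _ => σ)
        = p ^ k • lcVal c ![σ, τ] := by
      have := congrFun hdb ![σ, τ]
      rw [H68.d_one_apply] at this
      exact this
    have h2 := congrFun (congrArg dd.dv h1) x
    simp only [map_sub, map_add, Pi.sub_apply, Pi.add_apply, dd.dv_smul, map_nsmul,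
      Pi.smul_apply, nsmul_eq_mul] at h2
    rw [h2]
    push_cast
    ring
  obtain ⟨e, he_U, he, he_supp⟩ := sh1_core (D.sub F) hU dd.rep dd.rep_unique
    (fun σ x => (p : ℤ) ^ k * b σ x - dd.dv (lcValC y fun _ => σ) x)
    (fun σ τ x => by
      have h1 := hb_d σ τ x
      have h2 := hB' σ τ x
      simp only [dv1] at h1 ⊢
      linear_combination (p : ℤ) ^ k * h1 - h2)
    (fun σ u hu => by
      funext x
      rw [hb_r σ u hu, isLCAt_one hbU σ u hu])
  -- the class of `e` modulo divisors of `P` has order prime to `p`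
  obtain ⟨T₁, hT₁⟩ := dd.exists_finset_support hfin hcf
  obtain ⟨T₂, hT₂⟩ := dd.exists_finset_support hfin hbf
  have he_fin : ∃ t : Finset X, ∀ x, e x ≠ 0 → ∃ y ∈ t, ∃ g : G, g • y = x := by
    refine ⟨T₁ ∪ T₂, fun x hx => ?_⟩
    obtain ⟨σ, g, hne⟩ := he_supp x hx
    by_cases hb0 : b σ (g • x) = 0
    · have hB0 : dd.dv (lcValC y fun _ => σ) (g • x) ≠ 0 := by
        intro h0
        apply hne
        rw [hb0, h0]
        ring
      obtain ⟨y', hy', h, hh⟩ := hT₂ _ _ hB0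
      exact ⟨y', Finset.mem_union_right _ hy', g⁻¹ * h, by rw [mul_smul, hh, inv_smul_smul]⟩
    · obtain ⟨ρ, τ, g', hC⟩ := hb_supp σ (g • x) hb0
      obtain ⟨y', hy', h, hh⟩ := hT₁ _ _ hC
      exact ⟨y', Finset.mem_union_left _ hy', (g' * g)⁻¹ * h, by
        rw [mul_smul, hh, ← mul_smul g' g x, inv_smul_smul]⟩
  obtain ⟨n', -, hn', m'', hm''⟩ := hs e he_fin ⟨F, hF, hN, he_U⟩
  obtain ⟨a, b₀, hab⟩ := exists_bezout hp k hn'
  -- the corrected cochain takes its values in the divisors of `P`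
  have hβex : ∀ σ : G, ∃ m : P, ∀ x, dd.dv m x = b σ x - a * dv0 e σ x := by
    intro σ
    refine hs.pdiv hp k (fun x => b σ x - a * dv0 e σ x)
      ((lcValC y fun _ => σ) + b₀ • (P.ρ σ m'' - m'')) (fun x => ?_) ⟨F, hF, hN, fun u hu x => ?_⟩
    swap
    · have hconj : σ⁻¹ * u * σ ∈ D.sub F := by
        have := hUn.conj_mem u hu σ⁻¹
        rwa [inv_inv] at this
      have e1 : σ⁻¹ • u • x = (σ⁻¹ * u * σ) • σ⁻¹ • x := by
        rw [smul_smul, smul_smul, mul_inv_cancel_right]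
      show b σ (u • x) - a * dv0 e σ (u • x) = b σ x - a * dv0 e σ x
      simp only [dv0]
      rw [hb_val σ u hu x, e1, he_U _ hconj, he_U u hu]
    have h_e := he σ x
    simp only [map_add, map_zsmul, map_sub, Pi.add_apply, Pi.smul_apply, Pi.sub_apply,
      dd.dv_smul, smul_eq_mul, hm'']
    simp only [dv0] at h_e ⊢
    linear_combination (-1 : ℤ) * h_e + (e (σ⁻¹ • x) - e x) * hab
  choose β hβ using hβex
  have hlcb : IsLC D P (fun g : Fin 1 → G => β (g 0)) := by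
    refine ⟨F, hF, hN, fun g s hs => ?_, fun g s hs => ?_⟩
    · apply dd.dv_inj
      funext x
      show dd.dv (β (g 0 * s 0)) x = dd.dv (β (g 0)) x
      rw [hβ, hβ, hb_r _ _ (hs 0)]
      simp only [dv0, mul_inv_rev, mul_smul]
      rw [he_U _ ((D.sub F).inv_mem (hs 0))]
    · apply dd.dv_inj
      funext x
      show dd.dv (P.ρ s (β (g 0))) x = dd.dv (β (g 0)) x
      have hs' : s⁻¹ ∈ D.sub F := (D.sub F).inv_mem hs
      have hconj : (g 0)⁻¹ * s⁻¹ * g 0 ∈ D.sub F := by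
        have := hUn.conj_mem s⁻¹ hs' (g 0)⁻¹
        rwa [inv_inv] at this
      have e1 : (g 0)⁻¹ • s⁻¹ • x = ((g 0)⁻¹ * s⁻¹ * g 0) • (g 0)⁻¹ • x := by
        rw [smul_smul, smul_smul, mul_inv_cancel_right]
      rw [dd.dv_smul, hβ, hβ, hb_val _ _ hs']
      simp only [dv0]
      rw [e1, he_U _ hconj, he_U _ hs']
  rw [cls_eq_zero_iff (lcComplex D P) 1]
  refine ⟨H68.mkX D P 1 _ hlcb, ?_⟩
  apply lcValC_injective
  rw [H68.lcValC_d, H68.lcValC_mkX]
  funext g
  apply dd.dv_inj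
  funext x
  rw [H68.d_one_apply]
  have h1 := hb_d (g 0) (g 1) x
  have h2 := dv1_dv0 e (g 0) (g 1) x
  have h3 : lcValC c.1 g = lcVal c ![g 0, g 1] := by
    rw [H41.vec2_eta]
    rfl
  rw [h3]
  simp only [map_sub, map_add, Pi.sub_apply, Pi.add_apply, dd.dv_smul, hβ]
  simp only [dv1] at h1 h2
  linear_combination h1 - a * h2

/-- **(Pb)**: a `p`-primary class of `H²(P)` all of whose unramified invariants vanish is
zero. -/
theorem pb (hfin : ∀ F, D.Lev F → (D.sub F).FiniteIndex) {p : ℕ} (hp : p.Prime)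
    (hs : dd.Sat p) (z : Hlc D P 2) (hz : ∃ k : ℕ, p ^ k • z = 0)
    (hlam : ∀ v, dd.lam hfin v z = 0) : z = 0 :=
  pb_aux hfin hp hs z hz hlam

theorem pa_aux (hfin : ∀ F, D.Lev F → (D.sub F).FiniteIndex) {p : ℕ} (hp : p.Prime)
    (hs : dd.Sat p) (z : (lcComplex D P).homology 1) (hz : ∃ k : ℕ, p ^ k • z = 0) : z = 0 := by
  classical
  obtain ⟨c, rfl⟩ := cls_surjective (lcComplex D P) 1 z
  obtain ⟨k, hk⟩ := hz
  rw [← map_nsmul, cls_eq_zero_iff (lcComplex D P) 0] at hk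
  obtain ⟨y, hy⟩ := hk
  have hcf : IsLC D P (lcVal c) := H68.isLC_lcValC D P c.1
  have hdc : (inhomogeneousCochains.d P 1).hom (lcVal c) = 0 := by
    have h1 : lcValC (((lcComplex D P).d 1 (1 + 1)).hom c.1) = 0 := by
      rw [mem_cyc.mp c.2]
      rfl
    rwa [H68.lcValC_d] at h1
  have hdy : (inhomogeneousCochains.d P 0).hom (lcValC y) = p ^ k • lcVal c := by
    have h1 := congrArg lcValC hy
    rw [H68.lcValC_d] at h1
    exact h1
  obtain ⟨m₀, hm₀⟩ : ∃ m₀ : P, m₀ = lcValC y default := ⟨_, rfl⟩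
  obtain ⟨T₁, hT₁⟩ := dd.exists_finset_support hfin hcf
  obtain ⟨F, hF, hN, hcU⟩ := hcf
  have hUn : (D.sub F).Normal := D.sub_normal hN
  have hU : ∀ g : G, ∃ n : ℕ, 0 < n ∧ g ^ n ∈ D.sub F := exists_pow_mem_sub hfin hF
  -- the divisor cocycle
  have hC : ∀ (σ τ : G) (x : X),
      dv1 (fun σ x => dd.dv (lcVal c fun _ => σ) x) σ τ x = 0 := by
    intro σ τ x
    have h1 : P.ρ σ (lcVal c fun _ => τ) - lcVal c (fun _ => σ * τ) + lcVal c (fun _ => σ)
        = 0 := by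
      have := congrFun hdc ![σ, τ]
      rw [H68.d_one_apply] at this
      exact this
    have h2 := congrFun (congrArg dd.dv h1) x
    simp only [map_sub, map_add, map_zero, Pi.sub_apply, Pi.add_apply, Pi.zero_apply,
      dd.dv_smul] at h2
    simp only [dv1]
    exact h2
  obtain ⟨e, he_U, he, he_supp⟩ := sh1_core (D.sub F) hU dd.rep dd.rep_unique
    (fun σ x => dd.dv (lcVal c fun _ => σ) x) hC
    (fun σ u hu => by
      funext x
      rw [isLCAt_one hcU σ u hu])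
  -- `p^k c = d m₀`
  have hy' : ∀ (σ : G) (x : X),
      (p : ℤ) ^ k * dd.dv (lcVal c fun _ => σ) x = dd.dv m₀ (σ⁻¹ • x) - dd.dv m₀ x := by
    intro σ x
    have h1 : P.ρ σ m₀ - m₀ = p ^ k • lcVal c (fun _ => σ) := by
      have := congrFun hdy (fun _ => σ)
      rw [H68.d_zero_apply] at this
      rw [hm₀]
      exact this
    have h2 := congrFun (congrArg dd.dv h1) x
    simp only [map_sub, Pi.sub_apply, dd.dv_smul, map_nsmul, Pi.smul_apply, nsmul_eq_mul] at h2
    rw [h2]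
    push_cast
    ring
  -- `g₀ = p^k e - dv m₀` is invariant
  obtain ⟨g₀, hg₀⟩ : ∃ g₀ : X → ℤ, ∀ x, g₀ x = (p : ℤ) ^ k * e x - dd.dv m₀ x := ⟨_, fun _ => rfl⟩
  have hg₀_inv : ∀ (σ : G) (x : X), g₀ (σ⁻¹ • x) = g₀ x := by
    intro σ x
    have h1 := he σ x
    have h2 := hy' σ x
    simp only [dv0] at h1
    rw [hg₀, hg₀]
    linear_combination h2 - (p : ℤ) ^ k * h1
  have hg₀_inv' : ∀ (σ : G) (x : X), g₀ (σ • x) = g₀ x := by
    intro σ x
    have := hg₀_inv σ⁻¹ x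
    rwa [inv_inv] at this
  obtain ⟨t₀, ht₀⟩ := dd.dv_fin m₀
  have hg₀_fin : ∃ t : Finset X, ∀ x, g₀ x ≠ 0 → ∃ y ∈ t, ∃ g : G, g • y = x := by
    refine ⟨T₁ ∪ t₀, fun x hx => ?_⟩
    by_cases he0 : e x = 0
    · have hm0 : dd.dv m₀ x ≠ 0 := by
        intro h0
        apply hx
        rw [hg₀, he0, h0]
        ring
      obtain ⟨y', hy', h, hh⟩ := ht₀ x hm0
      exact ⟨y', Finset.mem_union_right _ hy', h, hh⟩
    · obtain ⟨σ, g, hne⟩ := he_supp x he0
      obtain ⟨y', hy', h, hh⟩ := hT₁ _ _ hne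
      exact ⟨y', Finset.mem_union_left _ hy', g⁻¹ * h, by rw [mul_smul, hh, inv_smul_smul]⟩
  obtain ⟨n', -, hn', m₁, hm₁⟩ := hs g₀ hg₀_fin ⟨F, hF, hN, fun u _ x => hg₀_inv' u x⟩
  obtain ⟨a, b₀, hab⟩ := exists_bezout hp k hn'
  -- the corrected primitive is a divisor of `P`
  obtain ⟨m', hm'⟩ := hs.pdiv hp k (fun x => e x - a * g₀ x) (m₀ + b₀ • m₁)
    (fun x => by
      simp only [map_add, map_zsmul, Pi.add_apply, Pi.smul_apply, smul_eq_mul, hm₁ x]
      have h3 := hg₀ x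
      linear_combination h3 + g₀ x * hab)
    ⟨F, hF, hN, fun u hu x => by
      show e (u • x) - a * g₀ (u • x) = e x - a * g₀ x
      rw [he_U u hu, hg₀_inv' u x]⟩
  have hval : ∀ σ : G, lcVal c (fun _ => σ) = P.ρ σ m' - m' := by
    intro σ
    apply dd.dv_inj
    funext x
    have h1 := he σ x
    simp only [dv0] at h1
    simp only [map_sub, Pi.sub_apply, dd.dv_smul, hm']
    rw [h1, hg₀_inv σ x]
    ring
  have hfix : ∀ u ∈ D.sub F, P.ρ u m' = m' := by
    intro u hu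
    apply dd.dv_inj
    funext x
    rw [dd.dv_smul, hm', hm', he_U _ ((D.sub F).inv_mem hu), hg₀_inv u x]
  have hlc : IsLC D P (fun _ : Fin 0 → G => m') :=
    ⟨F, hF, hN, fun _ _ _ => rfl, fun _ u hu => hfix u hu⟩
  rw [cls_eq_zero_iff (lcComplex D P) 0]
  refine ⟨H68.mkX D P 0 _ hlc, ?_⟩
  apply lcValC_injective
  rw [H68.lcValC_d, H68.lcValC_mkX]
  funext g
  rw [H68.d_zero_apply]
  have h1 := hval (g 0)
  rw [fin1_eta] at h1
  exact h1.symm

/-- **(Pa)**: `H¹(P)` has no `p`-primary torsion. -/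
theorem pa (hfin : ∀ F, D.Lev F → (D.sub F).FiniteIndex) {p : ℕ} (hp : p.Prime)
    (hs : dd.Sat p) (z : Hlc D P 1) (hz : ∃ k : ℕ, p ^ k • z = 0) : z = 0 :=
  pa_aux hfin hp hs z hz

end DivData

end Fermat.Agent.S55.H11
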