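/-
Program C (S55), package C9b, leaf (hlam), step (H1) (helper11; owner of (hlam): helper56):
the LOCAL unramified invariant formula for an ARBITRARY 2-cocycle, in C3's vocabulary.

For `L/F` a finite unramified Galois extension of embedded local fields with Frobenius `φ` and
ANY 2-cocycle `c` of `Gal(L/F)` with values in `Lˣ`:
the element `∑_{k<n} c(φ^k, φ)` (`n = [L:F] = orderOf φ`) is `baseUnit L a` for some `a ∈ Fˣ`, and
`inv q L [c] = ord(a) / n`.
-/
import Mathlib
import Fermat.Agent.S55.H66.C3Main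
import Fermat.Agent.S55.H37.CycClass
import Fermat.Agent.S55.H24.Inv

set_option autoImplicit false

noncomputable section

namespace Fermat.Agent.S55.H11

open IntermediateField CategoryTheory groupCohomology Fermat.Agent.S55.H66

variable (q : ℕ) [Fact q.Prime]

/-- A Frobenius of an unramified extension generates the Galois group. -/
theorem isFrob_generates (F : Type) [Field F] [Algebra ℚ_[q] F] [Algebra F (PadicAlgCl q)]
    [IsScalarTower ℚ_[q] F (PadicAlgCl q)] [FiniteDimensional ℚ_[q] F]
    (L : IntermediateField F (PadicAlgCl q)) [FiniteDimensional F L] [IsGalois F L]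
    (hun : IsUnram q F L) (φ : L ≃ₐ[F] L) (hφ : IsFrob q L φ) :
    ∀ g : L ≃ₐ[F] L, g ∈ Subgroup.zpowers φ := by
  obtain ⟨φ', -, huniq, hgen⟩ := c3_frob q F L hun
  rw [huniq φ hφ]
  exact hgen

/-- The order of the Frobenius is the degree. -/
theorem orderOf_frob (F : Type) [Field F] [Algebra ℚ_[q] F] [Algebra F (PadicAlgCl q)]
    [IsScalarTower ℚ_[q] F (PadicAlgCl q)] [FiniteDimensional ℚ_[q] F]
    (L : IntermediateField F (PadicAlgCl q)) [FiniteDimensional F L] [IsGalois F L]
    (hun : IsUnram q F L) (φ : L ≃ₐ[F] L) (hφ : IsFrob q L φ) :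
    orderOf φ = Module.finrank F L := by
  rw [orderOf_eq_card_of_forall_mem_zpowers (isFrob_generates q F L hun φ hφ),
    IsGalois.card_aut_eq_finrank]

/-- **(H1)** The local invariant of the class of any 2-cocycle of an unramified extension. -/
theorem inv_unram_cocycle (F : Type) [Field F] [Algebra ℚ_[q] F] [Algebra F (PadicAlgCl q)]
    [IsScalarTower ℚ_[q] F (PadicAlgCl q)] [FiniteDimensional ℚ_[q] F]
    (L : IntermediateField F (PadicAlgCl q)) [FiniteDimensional F L] [IsGalois F L]
    (hun : IsUnram q F L) (φ : L ≃ₐ[F] L) (hφ : IsFrob q L φ)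
    (c : cocycles₂ (Rep.ofAlgebraAutOnUnits F L)) :
    ∃ a : Fˣ, baseUnit L a = H37.cycSum (Rep.ofAlgebraAutOnUnits F L) φ c (orderOf φ) ∧
      inv q L ((H2π (Rep.ofAlgebraAutOnUnits F L)).hom c) =
        (((ord q (a : F) : ℚ) / (Module.finrank F L : ℚ) : ℚ) : QZ) := by
  have hgen := isFrob_generates q F L hun φ hφ
  obtain ⟨hinv, hc⟩ := H37.cycClass_sum (Rep.ofAlgebraAutOnUnits F L) φ (orderOf_pos φ) hgen c
  obtain ⟨a, ha⟩ := H24.exists_baseUnit_of_invariant L _ hinv
  refine ⟨a, ha, ?_⟩
  rw [hc, ← ha]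
  exact c3_invUnr q F L hun φ hφ a

end Fermat.Agent.S55.H11
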